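import Fermat.Agent.S55.B7.Defs
import Fermat.Agent.S55.A.SylowTower

/-!
# S55 / B7 : coset spaces `D ⧸ H`, towers of `ℤ/p`-torsors, Sylow
(keys S55/B7-COS-a, -b, -c; Mathlib + Coh/FnBasic + T/Torsor (definitions only); ANY group with levels)

a. `cosetPerm H` : transitive, smooth and finite if `H` is open; `Subgroup.quotientMapOfLE` and
   `orbMap` are maps of `D`-sets; compositions; degree formula `push ∘ pull = m`.
b. `H ≤ K`, `H` normalised by `K`, `K/H` of prime order `p` ⇒ `D ⧸ H → D ⧸ K` is a `CycTorsor p`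
   with `σ (g H) = g t H`, `t ∈ K \ H`.
c. group theory in the finite group `D ⧸ W` (`W` normal of finite index): Sylow subgroup, and a
   subgroup of index `p` in a non trivial `p`-group (`Sylow.exists_subgroup_card_pow_prime` +
   `Subgroup.normal_of_index_eq_minFac_card`), pulled back to `D` by `Subgroup.comap (mk' W)`.
-/

set_option autoImplicit false

namespace Fermat.Agent.S55.B7

open T

variable {D : Type} [Group D] {𝓛 : Lvl D}

/-! ### a -/

theorem isTrans_cosetPerm (H : Subgroup D) : IsTrans (cosetPerm H) :=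
  _root_.Fermat.Agent.S55.isTrans_cosetPerm H

theorem finite_coset {H : Subgroup D} (hH : 𝓛.IsOpen H) : Finite (D ⧸ H) :=
  finite_quot_of_isOpen hH

theorem smoothSet_cosetPerm {H : Subgroup D} (hH : 𝓛.IsOpen H) : SmoothSet (cosetPerm H) 𝓛 :=
  smoothSet_cosetPerm_of_isOpen hH

theorem fld_cosetPerm {H : Subgroup D} (hH : 𝓛.IsOpen H) : Fld 𝓛 (cosetPerm H) :=
  ⟨smoothSet_cosetPerm hH, isTrans_cosetPerm H⟩

theorem isSetMap_quotientMapOfLE {H K : Subgroup D} (h : H ≤ K) :
    IsSetMap (cosetPerm K) (cosetPerm H) (Subgroup.quotientMapOfLE h) := by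
  intro g s
  induction s using QuotientGroup.induction_on with
  | H x => rfl

variable {Sg : Type} (π : D →* Equiv.Perm Sg)

/-- `g H ↦ g s₀` -/
def orbMap (s₀ : Sg) (H : Subgroup D) (hH : ∀ h ∈ H, π h s₀ = s₀) : D ⧸ H → Sg :=
  Quotient.lift (fun g : D => π g s₀) (fun a b hab => by
    have h1 : a⁻¹ * b ∈ H := QuotientGroup.leftRel_apply.1 hab
    have h2 := hH _ h1
    rw [map_mul, Equiv.Perm.mul_apply, map_inv] at h2
    have h3 := congrArg (π a) h2
    simpa using h3.symm)

@[simp] theorem orbMap_mk (s₀ : Sg) (H : Subgroup D) (hH : ∀ h ∈ H, π h s₀ = s₀) (g : D) :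
    orbMap π s₀ H hH (g : D ⧸ H) = π g s₀ := rfl

theorem isSetMap_orbMap (s₀ : Sg) (H : Subgroup D) (hH : ∀ h ∈ H, π h s₀ = s₀) :
    IsSetMap π (cosetPerm H) (orbMap π s₀ H hH) := by
  intro g s
  induction s using QuotientGroup.induction_on with
  | H x =>
    change π (g * x) s₀ = π g (π x s₀)
    rw [map_mul, Equiv.Perm.mul_apply]

theorem orbMap_quotientMapOfLE (s₀ : Sg) {H K : Subgroup D} (h : H ≤ K)
    (hK : ∀ h ∈ K, π h s₀ = s₀) (x : D ⧸ H) :
    orbMap π s₀ K hK (Subgroup.quotientMapOfLE h x) = orbMap π s₀ H (fun g hg => hK g (h hg)) x := by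
  induction x using QuotientGroup.induction_on with
  | H x => rfl

/-- a normal level acting trivially on a smooth set -/
theorem exists_normal_of_smoothSet {π : D →* Equiv.Perm Sg} (hπ : SmoothSet π 𝓛) :
    ∃ U ∈ 𝓛.sets, U.Normal ∧ ∀ h ∈ U, ∀ s, π h s = s := by
  obtain ⟨U, hU, h⟩ := hπ
  obtain ⟨W, hW, hWU, hn⟩ := 𝓛.normal U hU
  exact ⟨W, hW, hn, fun g hg s => by rw [h g (hWU hg)]; rfl⟩

variable {π} {Sg' : Type} {π' : D →* Equiv.Perm Sg'} {u : Sg' → Sg}

/-- degree formula: all fibres of a map to a transitive set have the same cardinality `m` -/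
theorem exists_degree [Fintype Sg] [Fintype Sg'] (hu : IsSetMap π π' u) (hπ : IsTrans π) :
    ∃ m : ℕ, m * Fintype.card Sg = Fintype.card Sg' ∧
      ∀ (A : Type) [AddCommGroup A] (f : Sg → A), push A u (pull A u f) = m • f := by
  classical
  obtain ⟨⟨s₀⟩, htr⟩ := hπ
  have hcard : ∀ s : Sg, (Finset.univ.filter (fun s' => u s' = s)).card
      = (Finset.univ.filter (fun s' => u s' = s₀)).card := by
    intro s
    obtain ⟨g, hg⟩ := htr s s₀
    refine Finset.card_bij (fun a _ => π' g a) ?_ ?_ ?_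
    · intro a ha
      simp only [Finset.mem_filter, Finset.mem_univ, true_and] at ha ⊢
      rw [hu, ha, hg]
    · intro a _ b _ hab
      exact (π' g).injective hab
    · intro b hb
      simp only [Finset.mem_filter, Finset.mem_univ, true_and] at hb
      refine ⟨(π' g)⁻¹ b, ?_, by simp⟩
      simp only [Finset.mem_filter, Finset.mem_univ, true_and]
      apply (π g).injective
      rw [← hu, hg]
      simpa using hb
  refine ⟨(Finset.univ.filter (fun s' => u s' = s₀)).card, ?_, ?_⟩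
  · have h1 := Finset.card_eq_sum_card_fiberwise (f := u) (s := (Finset.univ : Finset Sg'))
      (t := (Finset.univ : Finset Sg)) (fun _ _ => Finset.mem_coe.2 (Finset.mem_univ _))
    rw [Finset.card_univ] at h1
    rw [h1, Finset.sum_congr rfl (fun s _ => hcard s), Finset.sum_const, Finset.card_univ,
      smul_eq_mul, mul_comm]
  · intro A _ f
    ext s
    rw [push_apply]
    have h2 : ∀ s' ∈ Finset.univ.filter (fun s' => u s' = s), pull A u f s' = f s := by
      intro s' hs'
      simp only [Finset.mem_filter, Finset.mem_univ, true_and] at hs'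
      change f (u s') = f s
      rw [hs']
    rw [Finset.sum_congr rfl h2, Finset.sum_const, hcard s]
    rfl

/-- functoriality of `push` -/
theorem push_comp {Sg'' : Type} [Fintype Sg'] [Fintype Sg''] (u' : Sg'' → Sg') {A : Type*}
    [AddCommGroup A] (f : Sg'' → A) : push A u (push A u' f) = push A (u ∘ u') f :=
  _root_.Fermat.Agent.S55.push_comp u u' f

/-! ### b -/

theorem exists_cycTorsor_coset {p : ℕ} (hp : p.Prime) {H K : Subgroup D} (h : H ≤ K)
    (hn : ∀ k ∈ K, ∀ x ∈ H, k * x * k⁻¹ ∈ H) (hidx : H.relIndex K = p) :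
    ∃ σ : Equiv.Perm (D ⧸ H),
      CycTorsor p (cosetPerm K) (cosetPerm H) (Subgroup.quotientMapOfLE h) σ := by
  haveI : Fact p.Prime := ⟨hp⟩
  have hs : PStep p H K := ⟨h, hn, hidx⟩
  obtain ⟨σ, hσ⟩ := hs.exists_cycTorsor
  have e : cosetMap hs.le = Subgroup.quotientMapOfLE h := by
    funext x
    induction x using QuotientGroup.induction_on with
    | H x => rfl
  rw [e] at hσ
  exact ⟨σ, hσ⟩

/-! ### c -/

theorem relIndex_comap_mk_aux (W : Subgroup D) [W.Normal] (Q : Subgroup (D ⧸ W)) :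
    W.relIndex (Q.comap (QuotientGroup.mk' W)) = Nat.card Q := by
  have h1 : (⊥ : Subgroup (D ⧸ W)).comap (QuotientGroup.mk' W) = W :=
    QuotientGroup.ker_mk' W
  have h2 := Subgroup.relIndex_comap (⊥ : Subgroup (D ⧸ W)) (QuotientGroup.mk' W)
    (Q.comap (QuotientGroup.mk' W))
  rw [h1, Subgroup.map_comap_eq_self_of_surjective (QuotientGroup.mk'_surjective W),
    Subgroup.relIndex_bot_left] at h2
  exact h2

theorem comap_map_mk_aux {W P : Subgroup D} [W.Normal] (h : W ≤ P) :
    (P.map (QuotientGroup.mk' W)).comap (QuotientGroup.mk' W) = P :=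
  Subgroup.comap_map_eq_self (by rw [QuotientGroup.ker_mk']; exact h)

theorem card_map_mk_aux {W P : Subgroup D} [W.Normal] (h : W ≤ P) :
    Nat.card (P.map (QuotientGroup.mk' W)) = W.relIndex P := by
  rw [← relIndex_comap_mk_aux, comap_map_mk_aux h]

theorem le_comap_mk_aux (W : Subgroup D) [W.Normal] (Q : Subgroup (D ⧸ W)) :
    W ≤ Q.comap (QuotientGroup.mk' W) := by
  intro x hx
  rw [Subgroup.mem_comap]
  have : QuotientGroup.mk' W x = 1 := by
    rw [QuotientGroup.mk'_apply, QuotientGroup.eq_one_iff]; exact hx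
  rw [this]; exact one_mem _

/-- a subgroup of index `p` in a non trivial `p`-group, above `W` -/
theorem exists_index_p {p : ℕ} [Fact p.Prime] {W P : Subgroup D} (hW : W.Normal)
    (hfin : W.FiniteIndex) (hWP : W ≤ P) {k : ℕ} (hk : W.relIndex P = p ^ (k + 1)) :
    ∃ P₁ : Subgroup D, W ≤ P₁ ∧ P₁ ≤ P ∧ (∀ x ∈ P, ∀ y ∈ P₁, x * y * x⁻¹ ∈ P₁) ∧
      P₁.relIndex P = p ∧ W.relIndex P₁ = p ^ k := by
  haveI := hW
  haveI := hfin
  haveI : Finite (D ⧸ W) := Subgroup.finite_quotient_of_finiteIndex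
  have hc : Nat.card (P.map (QuotientGroup.mk' W)) = p ^ (k + 1) := by
    rw [card_map_mk_aux hWP, hk]
  obtain ⟨Q', hQ'⟩ := Sylow.exists_subgroup_card_pow_prime (G := ↥(P.map (QuotientGroup.mk' W))) p
    (n := k) (by rw [hc]; exact pow_dvd_pow p (Nat.le_succ k))
  have hQc : Nat.card (Q'.map (P.map (QuotientGroup.mk' W)).subtype) = p ^ k := by
    rw [← hQ']
    exact Nat.card_congr
      (Q'.equivMapOfInjective _ (Subgroup.subtype_injective _)).symm.toEquiv
  have hQle : Q'.map (P.map (QuotientGroup.mk' W)).subtype ≤ P.map (QuotientGroup.mk' W) :=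
    Subgroup.map_subtype_le Q'
  have hs := (pStep_of_card hQc hc hQle).comap (QuotientGroup.mk' W)
    (QuotientGroup.mk'_surjective W)
  rw [comap_map_mk_aux hWP] at hs
  exact ⟨_, le_comap_mk_aux W _, hs.le, hs.conj, hs.index, by rw [relIndex_comap_mk_aux, hQc]⟩

/-- a Sylow `p`-subgroup of `D'/W` -/
theorem exists_sylow {p : ℕ} [Fact p.Prime] {W D' : Subgroup D} (hW : W.Normal)
    (hfin : W.FiniteIndex) (hWD : W ≤ D') :
    ∃ P : Subgroup D, W ≤ P ∧ P ≤ D' ∧ (∃ k : ℕ, W.relIndex P = p ^ k) ∧ ¬ p ∣ P.relIndex D' := by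
  haveI := hW
  haveI := hfin
  haveI : Finite (D ⧸ W) := Subgroup.finite_quotient_of_finiteIndex
  obtain ⟨S⟩ : Nonempty (Sylow p ↥(D'.map (QuotientGroup.mk' W))) := inferInstance
  have hQle : (S : Subgroup _).map (D'.map (QuotientGroup.mk' W)).subtype
      ≤ D'.map (QuotientGroup.mk' W) := Subgroup.map_subtype_le _
  refine ⟨((S : Subgroup _).map (D'.map (QuotientGroup.mk' W)).subtype).comap
    (QuotientGroup.mk' W), le_comap_mk_aux W _, ?_, ?_, ?_⟩
  · calc _ ≤ (D'.map (QuotientGroup.mk' W)).comap (QuotientGroup.mk' W) :=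
        Subgroup.comap_mono hQle
      _ = D' := comap_map_mk_aux hWD
  · obtain ⟨k, hk⟩ := IsPGroup.iff_card.1 S.isPGroup'
    refine ⟨k, ?_⟩
    rw [relIndex_comap_mk_aux, ← hk]
    exact Nat.card_congr
      ((S : Subgroup ↥(D'.map (QuotientGroup.mk' W))).equivMapOfInjective
        (D'.map (QuotientGroup.mk' W)).subtype (Subgroup.subtype_injective _)).symm.toEquiv
  · rw [Subgroup.relIndex_comap, Subgroup.relIndex]
    have e : ((S : Subgroup _).map (D'.map (QuotientGroup.mk' W)).subtype).subgroupOf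
        (D'.map (QuotientGroup.mk' W)) = S := by
      rw [Subgroup.subgroupOf, Subgroup.comap_map_eq_self_of_injective
        (Subgroup.subtype_injective _)]
    rw [e]
    exact S.not_dvd_index

/-- a character of order prime to `p`, trivial on `W`, is trivial on a `p`-group `P/W` -/
theorem chi_eq_one_of_pgroup {p : ℕ} [Fact p.Prime] (χ : D →* (ZMod p)ˣ) {W P : Subgroup D}
    (hW : W.Normal) (hWP : W ≤ P) {k : ℕ} (hk : W.relIndex P = p ^ k) (hχ : ∀ g ∈ W, χ g = 1) :
    ∀ g ∈ P, χ g = 1 := by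
  haveI := hW
  have hp : p.Prime := Fact.out
  intro g hg
  have hc : Nat.card (P.map (QuotientGroup.mk' W)) = p ^ k := by
    rw [card_map_mk_aux hWP, hk]
  have h1 : g ^ (p ^ k) ∈ W := by
    have h2 := pow_card_eq_one' (G := ↥(P.map (QuotientGroup.mk' W)))
      (x := ⟨QuotientGroup.mk' W g, Subgroup.mem_map_of_mem _ hg⟩)
    rw [hc] at h2
    have h3 := congrArg Subtype.val h2
    simp only [SubmonoidClass.mk_pow, OneMemClass.coe_one] at h3
    rw [← map_pow, QuotientGroup.mk'_apply, QuotientGroup.eq_one_iff] at h3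
    exact h3
  have h2 : χ g ^ (p ^ k) = 1 := by rw [← map_pow]; exact hχ _ h1
  have h3 : χ g ^ (p - 1) = 1 := ZMod.units_pow_card_sub_one_eq_one p (χ g)
  have hcop : Nat.Coprime (p ^ k) (p - 1) := by
    apply Nat.Coprime.pow_left
    rw [Nat.Prime.coprime_iff_not_dvd hp]
    exact Nat.not_dvd_of_pos_of_lt (by have := hp.two_le; omega) (by have := hp.two_le; omega)
  have h4 := Nat.dvd_gcd (orderOf_dvd_of_pow_eq_one h2) (orderOf_dvd_of_pow_eq_one h3)
  rw [hcop.gcd_eq_one, Nat.dvd_one, orderOf_eq_one_iff] at h4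
  exact h4

end Fermat.Agent.S55.B7
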