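import Mathlib

/-!
# S55 / B7 : groups whose `p`-torsion is cyclic of order `p`   (key S55/B7-CYC; Mathlib only)
-/

set_option autoImplicit false

namespace Fermat.Agent.S55.B7

variable {p : ℕ} [Fact p.Prime] {X Y : Type*} [AddCommGroup X] [AddCommGroup Y]

/-- `β` generates the `p`-torsion of `X`, which has order `p` -/
structure IsGen (p : ℕ) (β : X) : Prop where
  ne : β ≠ 0
  tors : p • β = 0
  gen : ∀ x : X, p • x = 0 → ∃ k : ℕ, x = k • β

theorem nsmul_eq_zero_iff {β : X} (h0 : β ≠ 0) (hp : p • β = 0) (k : ℕ) : k • β = 0 ↔ p ∣ k := by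
  rw [← addOrderOf_dvd_iff_nsmul_eq_zero, addOrderOf_eq_prime hp h0]

/-- multiplication by `m` prime to `p` is invertible on `p`-torsion -/
theorem exists_nsmul_inv {m : ℕ} (hm : ¬ p ∣ m) : ∃ m' : ℕ, ∀ x : X, p • x = 0 → m' • (m • x) = x := by
  have hp := (Fact.out : p.Prime)
  have hcop : Nat.Coprime m p := ((Nat.Prime.coprime_iff_not_dvd hp).2 hm).symm
  obtain ⟨m', -, h⟩ := Nat.exists_mul_mod_eq_one_of_coprime hcop hp.one_lt
  refine ⟨m', fun x hx => ?_⟩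
  rw [← mul_nsmul, ← Nat.mod_add_div (m * m') p, h, add_nsmul, one_nsmul, mul_nsmul, hx,
    nsmul_zero, add_zero]

/-- any non zero multiple of `β` generates the multiples of `β` -/
theorem exists_nsmul_eq {β : X} (hp : p • β = 0) {k : ℕ} (hk : k • β ≠ 0) :
    ∃ m : ℕ, m • (k • β) = β := by
  have hk' : ¬ p ∣ k := by
    rintro ⟨t, rfl⟩
    apply hk
    rw [mul_nsmul, hp, nsmul_zero]
  obtain ⟨m, hm⟩ := exists_nsmul_inv (p := p) (X := X) hk'
  exact ⟨m, hm β hp⟩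

theorem IsGen.of_ne_zero {β γ : X} (h : IsGen p β) (h0 : γ ≠ 0) (hp : p • γ = 0) : IsGen p γ := by
  refine ⟨h0, hp, fun x hx => ?_⟩
  obtain ⟨k, rfl⟩ := h.gen γ hp
  obtain ⟨m, hm⟩ := exists_nsmul_eq h.tors h0
  obtain ⟨j, rfl⟩ := h.gen x hx
  refine ⟨j * m, ?_⟩
  rw [mul_nsmul', hm]

/-- `f β ≠ 0` ⇒ `f` is injective on the `p`-torsion -/
theorem IsGen.injOn {β : X} (h : IsGen p β) (f : X →+ Y) (hf : f β ≠ 0) (x : X) (hx : p • x = 0)
    (hfx : f x = 0) : x = 0 := by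
  obtain ⟨k, rfl⟩ := h.gen x hx
  rw [map_nsmul, nsmul_eq_zero_iff hf (by rw [← map_nsmul, h.tors, map_zero])] at hfx
  exact (nsmul_eq_zero_iff h.ne h.tors k).2 hfx

/-- `f β ≠ 0` ⇒ `f` is onto on the `p`-torsion -/
theorem IsGen.surjOn {β : X} {γ : Y} (hγ : IsGen p γ) (hβ : p • β = 0) (f : X →+ Y)
    (hf : f β ≠ 0) (y : Y) (hy : p • y = 0) : ∃ k : ℕ, f (k • β) = y := by
  have h := hγ.of_ne_zero hf (by rw [← map_nsmul, hβ, map_zero])
  obtain ⟨k, rfl⟩ := h.gen y hy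
  exact ⟨k, map_nsmul f k β⟩

/-- a group killed by `p` with `IsGen` has `p` elements -/
theorem IsGen.card {β : X} (h : IsGen p β) (hX : ∀ x : X, p • x = 0) : Nat.card X = p := by
  have htop : AddSubgroup.zmultiples β = ⊤ := by
    rw [eq_top_iff]
    intro x _
    obtain ⟨k, rfl⟩ := h.gen x (hX x)
    exact AddSubgroup.nsmul_mem_zmultiples β k
  rw [← addOrderOf_eq_prime h.tors h.ne, ← Nat.card_zmultiples, htop]
  exact (Nat.card_congr AddSubgroup.topEquiv.toEquiv).symm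

/-- a subgroup of index `≤ p` containing `p X`: two elements outside are dependent -/
theorem exists_sub_mem_of_index_le (N : AddSubgroup X) (h0 : N.index ≠ 0) (hp : N.index ≤ p)
    (hpN : ∀ x : X, p • x ∈ N) {b₀ : X} (hb₀ : b₀ ∉ N) (b : X) : ∃ k : ℕ, b - k • b₀ ∈ N := by
  have hpp := (Fact.out : p.Prime)
  have : N.FiniteIndex := ⟨h0⟩
  have hfin : Finite (X ⧸ N) := AddSubgroup.finite_quotient_of_finiteIndex
  set y : X ⧸ N := QuotientAddGroup.mk b₀ with hy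
  have hy0 : y ≠ 0 := by
    rwa [hy, Ne, QuotientAddGroup.eq_zero_iff]
  have hyp : p • y = 0 := by
    rw [hy, ← QuotientAddGroup.mk_nsmul, QuotientAddGroup.eq_zero_iff]
    exact hpN b₀
  have hord : addOrderOf y = p := addOrderOf_eq_prime hyp hy0
  have htop : AddSubgroup.zmultiples y = ⊤ := by
    apply AddSubgroup.eq_top_of_le_card
    rw [Nat.card_zmultiples, hord]
    exact hp
  have hmem : (QuotientAddGroup.mk b : X ⧸ N) ∈ AddSubgroup.zmultiples y := by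
    rw [htop]; trivial
  obtain ⟨k, hk⟩ := AddSubgroup.mem_zmultiples_iff.1 hmem
  have hp0 : (p : ℤ) ≠ 0 := by exact_mod_cast hpp.ne_zero
  refine ⟨(k % p).toNat, ?_⟩
  rw [← QuotientAddGroup.eq_zero_iff, QuotientAddGroup.mk_sub, QuotientAddGroup.mk_nsmul, ← hy,
    ← hk, sub_eq_zero, ← natCast_zsmul, Int.toNat_of_nonneg (Int.emod_nonneg k hp0)]
  conv_lhs => rw [← Int.emod_add_mul_ediv k p]
  rw [add_zsmul, mul_zsmul', natCast_zsmul, hyp, zsmul_zero, add_zero]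

end Fermat.Agent.S55.B7
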