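import Fermat.Agent.S55.B7.Defs

/-!
# S55 / B7 : the valuation on `E^×`   (key S55/B7-VAL; formal consequences of `LocArith.tf/inv/base/val_unr`)

* `w_const` : `w (b s)` does not depend on `s` (`b` invariant, `Σ` transitive, `w` invariant).
* `w_norE`  : `w (N c) = n • w c`  (`CycTorsor.push_apply`).
* `exists_unif` : the value group of `E` is infinite cyclic.  Proof: `N = #Σ`, `γ₀ = w ϖ₀` (`base`).
  `e b := ∑ s, b s` is invariant, `w (e b) = N • w b = κ b • γ₀`; `κ : E^× → ℤ` is additive (uniqueness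
  of `κ b` by `tf`), its range is `d ℤ` (`Int.subgroup_cyclic`), `d ≠ 0` since `κ (η ϖ₀) = N`; take `ϖ` with
  `κ ϖ = d`; `κ b = m d` ⇒ `N • (w b - m • w ϖ) = 0` ⇒ `w b = m • w ϖ`.
* `exists_ram` : if the value group grows in a `ℤ/p`-torsor then `w ϖ = p • w c'` for some `c'`:
  `w c ∉ Γ_E`, `p • w c = w (N c) = k • w ϖ`, `p ∤ k`, Bezout `a k + b p = 1`, `c' = a c + b ϖ`.
* `not_norm` : in an unramified transitive torsor of order `n` the norms have `w ∈ n Γ_E`.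
-/

set_option autoImplicit false

namespace Fermat.Agent.S55.B7

open T

variable {D : Type} [Group D] {𝓛 : Lvl D} {Ω : Type} [Field Ω] {α : D →* RingAut Ω}
  {p : ℕ} [Fact p.Prime] {χ : D →* (ZMod p)ˣ} {I : Subgroup D} {Γ : Type} [AddCommGroup Γ]
  {w : Additive Ωˣ →+ Γ}
variable {Sg Sg' : Type} {π : D →* Equiv.Perm Sg} {π' : D →* Equiv.Perm Sg'} {u : Sg' → Sg}
  {σ : Equiv.Perm Sg'} {n : ℕ}

theorem LocArith.zsmul_eq_zero (LA : LocArith 𝓛 α p χ I w) {k : ℤ} {γ : Γ} (hγ : γ ≠ 0)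
    (h : k • γ = 0) : k = 0 := by
  by_contra hk
  apply hγ
  refine LA.tf k.natAbs γ (Int.natAbs_ne_zero.2 hk) ?_
  rcases Int.natAbs_eq k with h1 | h1
  · rw [h1, natCast_zsmul] at h
    exact h
  · rw [h1, neg_zsmul, natCast_zsmul, neg_eq_zero] at h
    exact h

theorem LocArith.eq_of_nsmul_eq (LA : LocArith 𝓛 α p χ I w) {N : ℕ} (hN : N ≠ 0) {γ δ : Γ}
    (h : N • γ = N • δ) : γ = δ := by
  rw [← sub_eq_zero]
  apply LA.tf N _ hN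
  rw [nsmul_sub, h, sub_self]

theorem LocArith.w_const (LA : LocArith 𝓛 α p χ I w) (hπ : IsTrans π) (b : ↥(Ex α π)) (s t : Sg) :
    w (b.1 s) = w (b.1 t) := by
  obtain ⟨g, rfl⟩ := hπ.2 s t
  have h := congrFun (b.2 g) (π g s)
  rw [Fn_apply] at h
  have e : (π g)⁻¹ (π g s) = s := by simp
  rw [e] at h
  rw [← h, LA.inv]

theorem LocArith.w_norE (LA : LocArith 𝓛 α p χ I w) [Fintype Sg'] (T : CycTorsor n π π' u σ)
    (hπ' : IsTrans π') (c : ↥(Ex α π')) (s' : Sg') :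
    w ((norE α T.map c).1 (u s')) = n • w (c.1 s') := by
  rw [coe_norE, T.push_apply, map_sum,
    Finset.sum_congr rfl fun k _ => LA.w_const hπ' c ((σ ^ k) s') s']
  simp

/-- a uniformiser of `E` -/
def IsUnif (w : Additive Ωˣ →+ Γ) (ϖ : ↥(Ex α π)) : Prop :=
  (∀ s, w (ϖ.1 s) ≠ 0) ∧ ∀ b : ↥(Ex α π), ∃ k : ℤ, ∀ s, w (b.1 s) = k • w (ϖ.1 s)

theorem LocArith.exists_unif (LA : LocArith 𝓛 α p χ I w) [Fintype Sg] (F : Fld 𝓛 π) :
    ∃ ϖ : ↥(Ex α π), IsUnif w ϖ := by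
  obtain ⟨ϖ₀, hinv, hne, hbase⟩ := LA.base
  obtain ⟨⟨s₀⟩, -⟩ := F.tr
  have : Nonempty Sg := ⟨s₀⟩
  have hN : Fintype.card Sg ≠ 0 := Fintype.card_ne_zero
  set N := Fintype.card Sg with hNdef
  -- the total sum
  have hsum : ∀ b : ↥(Ex α π), w (∑ s, b.1 s) = N • w (b.1 s₀) := by
    intro b
    rw [map_sum, Finset.sum_congr rfl fun s _ => LA.w_const F.tr b s s₀]
    simp [hNdef]
  have hk : ∀ b : ↥(Ex α π), ∃ k : ℤ, N • w (b.1 s₀) = k • w ϖ₀ := by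
    intro b
    rw [← hsum b]
    apply hbase
    intro g
    have h1 := isHom_eps π (gm α) g b.1
    rw [b.2 g] at h1
    exact h1.symm
  -- the subgroup of `ℤ`
  let KK : AddSubgroup ℤ :=
    { carrier := {k | ∃ b : ↥(Ex α π), N • w (b.1 s₀) = k • w ϖ₀}
      zero_mem' := ⟨0, by simp⟩
      add_mem' := by
        rintro k l ⟨b, hb⟩ ⟨c, hc⟩
        refine ⟨b + c, ?_⟩
        rw [add_zsmul, ← hb, ← hc, ← nsmul_add, ← map_add]
        rfl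
      neg_mem' := by
        rintro k ⟨b, hb⟩
        refine ⟨-b, ?_⟩
        rw [neg_zsmul, ← hb, ← smul_neg, ← map_neg]
        rfl }
  obtain ⟨d, hd⟩ := Int.subgroup_cyclic KK
  have hmem : ∀ k, k ∈ KK ↔ ∃ m : ℤ, k = m * d := by
    intro k
    rw [hd, AddSubgroup.mem_closure_singleton]
    constructor
    · rintro ⟨m, rfl⟩
      exact ⟨m, by simp⟩
    · rintro ⟨m, rfl⟩
      exact ⟨m, by simp⟩
  have hNmem : (N : ℤ) ∈ KK := by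
    refine ⟨⟨fun _ => ϖ₀, fun g => ?_⟩, ?_⟩
    · funext s
      exact hinv g
    · rw [natCast_zsmul]
  have hd0 : d ≠ 0 := by
    rintro rfl
    obtain ⟨m, hm⟩ := (hmem _).1 hNmem
    rw [mul_zero] at hm
    exact hN (by exact_mod_cast hm)
  obtain ⟨ϖ, hϖ⟩ : d ∈ KK := (hmem d).2 ⟨1, by simp⟩
  have hϖ0 : w (ϖ.1 s₀) ≠ 0 := by
    intro h0
    rw [h0, nsmul_zero] at hϖ
    exact hd0 (LA.zsmul_eq_zero hne hϖ.symm)
  refine ⟨ϖ, fun s => by rw [LA.w_const F.tr ϖ s s₀]; exact hϖ0, fun b => ?_⟩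
  obtain ⟨k, hkb⟩ := hk b
  obtain ⟨m, rfl⟩ := (hmem k).1 ⟨b, hkb⟩
  refine ⟨m, fun s => ?_⟩
  rw [LA.w_const F.tr b s s₀, LA.w_const F.tr ϖ s s₀]
  apply LA.eq_of_nsmul_eq hN
  rw [hkb, mul_zsmul, ← hϖ, ← natCast_zsmul, ← natCast_zsmul (m • w (ϖ.1 s₀)), zsmul_comm]

theorem LocArith.exists_ram (LA : LocArith 𝓛 α p χ I w) [Fintype Sg] [Fintype Sg'] (F : Fld 𝓛 π)
    (F' : Fld 𝓛 π') (T : CycTorsor p π π' u σ) {ϖ : ↥(Ex α π)} (hϖ : IsUnif w ϖ)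
    (h : ¬ ∀ c : ↥(Ex α π'), ∃ b : ↥(Ex α π), ∀ s', w (c.1 s') = w (b.1 (u s'))) :
    ∃ c' : ↥(Ex α π'), ∀ s', p • w (c'.1 s') = w (ϖ.1 (u s')) := by
  have hp := (Fact.out : p.Prime)
  push Not at h
  obtain ⟨c, hc⟩ := h
  obtain ⟨k, hk⟩ := hϖ.2 (norE α T.map c)
  have hpc : ∀ s', p • w (c.1 s') = k • w (ϖ.1 (u s')) := fun s' => by
    rw [← LA.w_norE T F'.tr c s', hk]
  have hpk : ¬ (p : ℤ) ∣ k := by
    rintro ⟨j, rfl⟩
    obtain ⟨s', hs'⟩ := hc (j • ϖ)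
    apply hs'
    apply LA.eq_of_nsmul_eq hp.ne_zero
    rw [hpc s', mul_zsmul, natCast_zsmul]
    congr 1
    exact (map_zsmul w j (ϖ.1 (u s'))).symm
  have hcop : IsCoprime k (p : ℤ) :=
    ((Nat.prime_iff_prime_int.1 hp).coprime_iff_not_dvd.2 hpk).symm
  obtain ⟨a, b, hab⟩ := hcop
  refine ⟨a • c + b • resE α T.map ϖ, fun s' => ?_⟩
  have e : ((a • c + b • resE α T.map ϖ : ↥(Ex α π')).1 s') = a • c.1 s' + b • ϖ.1 (u s') := rfl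
  rw [e, map_add, map_zsmul, map_zsmul, nsmul_add, ← natCast_zsmul, zsmul_comm, natCast_zsmul,
    hpc s', ← mul_zsmul, ← natCast_zsmul, ← mul_zsmul, ← add_zsmul, mul_comm (p : ℤ) b, hab,
    one_zsmul]

theorem LocArith.not_norm (LA : LocArith 𝓛 α p χ I w) [Fintype Sg] [Fintype Sg'] (F : Fld 𝓛 π)
    (F' : Fld 𝓛 π') (T : CycTorsor n π π' u σ) (hU : Unr I π π' u) {ϖ : ↥(Ex α π)}
    (hϖ : IsUnif w ϖ) (b : ↥(Ex α π)) (m : ℤ) (hb : ∀ s, w (b.1 s) = m • w (ϖ.1 s))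
    (hm : ¬ (n : ℤ) ∣ m) : ¬ ∃ c : ↥(Ex α π'), norE α T.map c = b := by
  rintro ⟨c, rfl⟩
  apply hm
  obtain ⟨⟨s'⟩, -⟩ := F'.tr
  obtain ⟨b', hb'⟩ := LA.val_unr π π' u σ n F F' T hU c
  obtain ⟨k, hk⟩ := hϖ.2 b'
  have h1 := hb (u s')
  rw [LA.w_norE T F'.tr c s', hb' s', hk (u s'), ← natCast_zsmul, ← mul_zsmul, ← sub_eq_zero,
    ← sub_smul] at h1
  have h2 := LA.zsmul_eq_zero (hϖ.1 (u s')) h1
  exact ⟨k, by linarith⟩

end Fermat.Agent.S55.B7
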