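import Fermat.Agent.S55.B7.Sect
import Fermat.Agent.S55.B7.Cyc
import Fermat.Agent.S55.B7.Val

/-!
# S55 / B7, step (a) : the class `β₀(E)` and the relative Brauer groups of `ℤ/p`-extensions

`IsBeta β` : `β ∈ Br(E)`, `β ≠ 0`, `p β = 0`, `β` is split by EVERY transitive `ℤ/p`-torsor over `E`.
* `exists_beta` : such a class exists (`β = θ_{E_p/E}(ϖ)`).
* `eq_nsmul_beta` : if `μ_p ⊂ E`, every class split by a transitive `ℤ/p`-torsor is a multiple of `β`.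
-/

set_option autoImplicit false

namespace Fermat.Agent.S55.B7

open T

noncomputable instance fintypeFibProd {Sg Sg₁ Sg' : Type} [Fintype Sg₁] [Fintype Sg'] (v : Sg₁ → Sg)
    (u : Sg' → Sg) : Fintype (FibProd v u) := Fintype.ofFinite _

variable {D : Type} [Group D] {𝓛 : Lvl D} {Ω : Type} [Field Ω] {α : D →* RingAut Ω}
  {p : ℕ} [Fact p.Prime] {χ : D →* (ZMod p)ˣ} {I : Subgroup D} {Γ : Type} [AddCommGroup Γ]
  {w : Additive Ωˣ →+ Γ}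
variable {Sg Sg' S₁ : Type} {π : D →* Equiv.Perm Sg} {π' : D →* Equiv.Perm Sg'}
  {π₁ : D →* Equiv.Perm S₁} {u : Sg' → Sg} {u₁ : S₁ → Sg} {σ : Equiv.Perm Sg'}
  {σ₁ : Equiv.Perm S₁} {n : ℕ}

/-- `θ` in the notation of B7 -/
noncomputable abbrev th (hα : GalAct 𝓛 α) [Fintype Sg'] (T : CycTorsor n π π' u σ)
    (hπ' : SmoothSet π' 𝓛) : ↥(Ex α π) →+ Br 𝓛 α π :=
  T.theta (gm α) hα.smooth_gm hπ'

theorem th_eq_zero_iff (hα : GalAct 𝓛 α) [Fintype Sg'] (T : CycTorsor n π π' u σ)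
    (hπ' : SmoothSet π' 𝓛) (b : ↥(Ex α π)) :
    th hα T hπ' b = 0 ↔ ∃ c : ↥(Ex α π'), norE α T.map c = b :=
  T.theta_eq_zero_iff hα hπ' b

theorem exists_th_eq_iff (hα : GalAct 𝓛 α) [Fintype Sg'] (T : CycTorsor n π π' u σ)
    (hπ' : SmoothSet π' 𝓛) (x : Br 𝓛 α π) :
    (∃ b, th hα T hπ' b = x) ↔ resB 𝓛 α T.map x = 0 :=
  T.exists_theta_eq_iff hα hπ' x

theorem norE_resE [Fintype Sg'] (T : CycTorsor n π π' u σ) (b : ↥(Ex α π)) :
    norE α T.map (resE α T.map b) = n • b :=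
  Subtype.ext (T.push_pull b.1)

/-- restriction of `θ` to `Σ'` = `θ` of the base change -/
theorem resB_th (hα : GalAct 𝓛 α) [Fintype Sg'] [Fintype S₁] (T₁ : CycTorsor n π π₁ u₁ σ₁)
    (h₁ : SmoothSet π₁ 𝓛) (hu : IsSetMap π π' u) (h' : SmoothSet π' 𝓛) (b : ↥(Ex α π)) :
    resB 𝓛 α hu (th hα T₁ h₁ b) =
      th hα (T₁.baseChange hu) (smoothSet_fibPerm hu T₁.map h' h₁) (resE α hu b) :=
  T₁.theta_pull (T₁.baseChange hu) T₁.baseChange_map hu (isSetMap_fibProd_snd hu T₁.map) (gm α)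
    hα.smooth_gm h₁ (smoothSet_fibPerm hu T₁.map h' h₁) b

/-- corestriction of `θ` of the base change -/
theorem corB_th (hα : GalAct 𝓛 α) [Fintype Sg'] [Fintype S₁] (T₁ : CycTorsor n π π₁ u₁ σ₁)
    (h₁ : SmoothSet π₁ 𝓛) (hu : IsSetMap π π' u) (h' : SmoothSet π' 𝓛) (c : ↥(Ex α π')) :
    corB 𝓛 α hu (th hα (T₁.baseChange hu) (smoothSet_fibPerm hu T₁.map h' h₁) c) =
      th hα T₁ h₁ (norE α hu c) :=
  T₁.theta_push (T₁.baseChange hu) T₁.baseChange_map hu (isSetMap_fibProd_snd hu T₁.map) (gm α)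
    hα.smooth_gm h₁ (smoothSet_fibPerm hu T₁.map h' h₁) c

variable (𝓛 α p) in
/-- `β ≠ 0`, `p β = 0`, `β` is split by every transitive `ℤ/p`-torsor -/
def IsBeta (π : D →* Equiv.Perm Sg) (β : Br 𝓛 α π) : Prop :=
  β ≠ 0 ∧ p • β = 0 ∧ ∀ (Sg' : Type) [Fintype Sg'] (π' : D →* Equiv.Perm Sg') (u : Sg' → Sg)
    (σ : Equiv.Perm Sg'), Fld 𝓛 π' → ∀ T : CycTorsor p π π' u σ, resB 𝓛 α T.map β = 0

/-- a uniformiser of `E` becomes a norm from `E' E_p` in every `ℤ/p`-extension `E'` -/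
theorem exists_norm_baseChange (LA : LocArith 𝓛 α p χ I w) [Fintype Sg] [Fintype Sg'] [Fintype S₁]
    (F : Fld 𝓛 π) (F' : Fld 𝓛 π') (F₁ : Fld 𝓛 π₁) (T₁ : CycTorsor p π π₁ u₁ σ₁)
    (hU : Unr I π π₁ u₁) (T : CycTorsor p π π' u σ) {ϖ : ↥(Ex α π)} (hϖ : IsUnif w ϖ) :
    ∃ c, norE α (T₁.baseChange T.map).map c = resE α T.map ϖ := by
  have hp : p.Prime := Fact.out
  by_cases hval : ∀ c : ↥(Ex α π'), ∃ b : ↥(Ex α π), ∀ s', w (c.1 s') = w (b.1 (u s'))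
  · -- unramified case: the base change has a section
    have hU' := LA.unr_of_val π π' u σ F F' T hval
    obtain ⟨j, hj, hju⟩ := LA.unr_unique π π' π₁ u u₁ σ σ₁ F F' F₁ T T₁ hU' hU
    obtain ⟨τ, hτ, hτu⟩ := exists_section_baseChange T.map T₁.map j hj hju
    exact norm_surjective_of_section (T₁.baseChange T.map) τ hτ hτu (gm α) _
  · by_cases htr : IsTrans (fibPerm T.map T₁.map)
    · obtain ⟨c', hc'⟩ := LA.exists_ram F F' T hϖ hval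
      have FP : Fld 𝓛 (fibPerm T.map T₁.map) := ⟨smoothSet_fibPerm T.map T₁.map F'.sm F₁.sm, htr⟩
      obtain ⟨c₁, hc₁⟩ := LA.unit_norm π' (fibPerm T.map T₁.map) _ _ F' FP (T₁.baseChange T.map)
        (hU.baseChange T.map T₁.map) (resE α T.map ϖ - p • c') (fun s => by
          have : ((resE α T.map ϖ - p • c' : ↥(Ex α π')) : Sg' → Additive Ωˣ) s
              = ϖ.1 (u s) - p • c'.1 s := rfl
          rw [this, map_sub, map_nsmul, hc', sub_self])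
      refine ⟨c₁ + resE α (T₁.baseChange T.map).map c', ?_⟩
      rw [map_add, hc₁, norE_resE (T₁.baseChange T.map)]
      abel
    · obtain ⟨τ, hτ, hτu⟩ := exists_section_of_not_trans hp (T₁.baseChange T.map) F'.tr htr
      exact norm_surjective_of_section (T₁.baseChange T.map) τ hτ hτu (gm α) _

theorem exists_beta (hα : GalAct 𝓛 α) (LA : LocArith 𝓛 α p χ I w) [Fintype Sg] (F : Fld 𝓛 π) :
    ∃ β : Br 𝓛 α π, IsBeta 𝓛 α p π β := by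
  have hp : p.Prime := Fact.out
  obtain ⟨S₁, S₂, _, _, π₁, π₂, u₁, u₂, σ₁, σ₂, F₁, F₂, T₁, T₂, T₂₁, hU₁, hU₂⟩ := LA.tower π F
  obtain ⟨ϖ, hϖ⟩ := LA.exists_unif F
  refine ⟨th hα T₁ F₁.sm ϖ, ?_, T₁.nsmul_theta hα F₁.sm ϖ, ?_⟩
  · rw [Ne, th_eq_zero_iff]
    refine LA.not_norm F F₁ T₁ hU₁ hϖ ϖ 1 (fun s => (one_zsmul _).symm) ?_
    intro h
    have := Int.isUnit_iff.1 (isUnit_of_dvd_one h)
    have h2 := hp.two_le
    omega
  · intro Sg' _ π' u σ F' T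
    rw [resB_th hα T₁ F₁.sm T.map F'.sm, th_eq_zero_iff]
    exact exists_norm_baseChange LA F F' F₁ T₁ hU₁ T hϖ

/-- step (a) -/
theorem eq_nsmul_beta (hα : GalAct 𝓛 α) (LA : LocArith 𝓛 α p χ I w) [Fintype Sg] [Fintype Sg']
    (F : Fld 𝓛 π) (F' : Fld 𝓛 π') (hμ : MuIn χ π) {β : Br 𝓛 α π} (hβ : IsBeta 𝓛 α p π β)
    (T : CycTorsor p π π' u σ) (x : Br 𝓛 α π) (hx : resB 𝓛 α T.map x = 0) :
    ∃ k : ℕ, x = k • β := by
  obtain ⟨b, rfl⟩ := (exists_th_eq_iff hα T F'.sm x).2 hx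
  obtain ⟨b₀, hb₀⟩ := (exists_th_eq_iff hα T F'.sm β).2 (hβ.2.2 Sg' π' u σ F' T)
  obtain ⟨h0, hle⟩ := LA.index_le π π' u σ F F' hμ T
  have hb₀N : b₀ ∉ (norE α T.map).range := by
    rintro ⟨c, hc⟩
    exact hβ.1 (by rw [← hb₀]; exact (th_eq_zero_iff hα T F'.sm b₀).2 ⟨c, hc⟩)
  obtain ⟨k, c, hc⟩ := exists_sub_mem_of_index_le (p := p) (norE α T.map).range h0 hle
    (fun x => ⟨resE α T.map x, norE_resE T x⟩) hb₀N b
  refine ⟨k, ?_⟩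
  have h1 := (th_eq_zero_iff hα T F'.sm (b - k • b₀)).2 ⟨c, hc⟩
  rw [map_sub, map_nsmul, hb₀, sub_eq_zero] at h1
  exact h1

end Fermat.Agent.S55.B7
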