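import Fermat.Agent.S55.B7.Coset
import Fermat.Agent.S55.B7.StepA
import Fermat.Agent.S55.G.Sets

/-!
# S55 / B7 : more on coset spaces; functoriality of `resB`, `corB`   (helper3)
-/

set_option autoImplicit false

namespace Fermat.Agent.S55.B7

open T

variable {D : Type} [Group D] {𝓛 : Lvl D} {Ω : Type} [Field Ω] {α : D →* RingAut Ω}

theorem quotientMapOfLE_comp {H K L : Subgroup D} (h₁ : H ≤ K) (h₂ : K ≤ L) (x : D ⧸ H) :
    Subgroup.quotientMapOfLE h₂ (Subgroup.quotientMapOfLE h₁ x) =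
      Subgroup.quotientMapOfLE (h₁.trans h₂) x := by
  induction x using QuotientGroup.induction_on with
  | H g => rfl

theorem quotientMapOfLE_self {H : Subgroup D} (h : H ≤ H) (x : D ⧸ H) :
    Subgroup.quotientMapOfLE h x = x := by
  induction x using QuotientGroup.induction_on with
  | H g => rfl

theorem muIn_cosetPerm {p : ℕ} {χ : D →* (ZMod p)ˣ} {P : Subgroup D} (hχ : ∀ x ∈ P, χ x = 1) :
    MuIn χ (cosetPerm P) := by
  intro g s hs
  induction s using QuotientGroup.induction_on with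
  | H a =>
    have h1 : ((g * a : D) : D ⧸ P) = (a : D ⧸ P) := hs
    have h2 : (g * a)⁻¹ * a ∈ P := QuotientGroup.eq.1 h1
    have h3 := hχ _ h2
    rw [map_mul, map_inv, map_mul, mul_inv_rev, mul_assoc, mul_comm (χ g)⁻¹, ← mul_assoc,
      inv_mul_cancel, one_mul, inv_eq_one] at h3
    exact h3

variable {Sg Sg' Sg'' : Type} {π : D →* Equiv.Perm Sg} {π' : D →* Equiv.Perm Sg'}
  {π'' : D →* Equiv.Perm Sg''} {u : Sg' → Sg} {v : Sg'' → Sg'} {uv : Sg'' → Sg}

theorem push_of_id {A : Type*} [AddCommGroup A] [Fintype Sg] {e : Sg → Sg} (h : ∀ s, e s = s)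
    (f : Sg → A) : push A e f = f := by
  classical
  ext s
  rw [push_apply, Finset.sum_eq_single s]
  · intro t ht hts
    rw [Finset.mem_filter, h t] at ht
    exact absurd ht.2 hts
  · intro hs
    exact absurd (by rw [Finset.mem_filter]; exact ⟨Finset.mem_univ _, h s⟩) hs

theorem resB_resB (hu : IsSetMap π π' u) (hv : IsSetMap π' π'' v) (huv : IsSetMap π π'' uv)
    (h : ∀ s, u (v s) = uv s) (x : Br 𝓛 α π) :
    resB 𝓛 α hv (resB 𝓛 α hu x) = resB 𝓛 α huv x :=
  G.pull_pull (gm α) 𝓛 hu hv huv h x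

theorem resB_id {e : Sg → Sg} (he : IsSetMap π π e) (h : ∀ s, e s = s) (x : Br 𝓛 α π) :
    resB 𝓛 α he x = x :=
  G.pull_id (gm α) 𝓛 he h x

theorem corB_corB [Fintype Sg'] [Fintype Sg''] (hu : IsSetMap π π' u) (hv : IsSetMap π' π'' v)
    (huv : IsSetMap π π'' uv) (h : ∀ s, u (v s) = uv s) (x : Br 𝓛 α π'') :
    corB 𝓛 α hu (corB 𝓛 α hv x) = corB 𝓛 α huv x := by
  refine H2c_H2c 𝓛 _ _ _ (fun a => ?_) x
  rw [push_comp]
  have : u ∘ v = uv := funext h
  rw [this]

theorem corB_id [Fintype Sg] {e : Sg → Sg} (he : IsSetMap π π e) (h : ∀ s, e s = s)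
    (x : Br 𝓛 α π) : corB 𝓛 α he x = x :=
  H2c_of_id 𝓛 _ (fun a => push_of_id h a) x

theorem corB_resB_torsor [Fintype Sg'] {σ : Equiv.Perm Sg'} {n : ℕ} (T : CycTorsor n π π' u σ)
    (x : Br 𝓛 α π) : corB 𝓛 α T.map (resB 𝓛 α T.map x) = n • x := by
  rw [corB, resB, ← H2c_comp 𝓛 (isHom_push (gm α) T.map) (isHom_pull (gm α) T.map)]
  exact H2c_eq_nsmul _ n (fun a => T.push_pull a) x

theorem card_eq_index_stab [Fintype Sg] (hπ : IsTrans π) (s₀ : Sg) :
    Fintype.card Sg = (G.stab π s₀).index := by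
  have hbij : Function.Bijective (orbMap π s₀ (G.stab π s₀) (fun _ h => h)) := by
    constructor
    · intro x y
      induction x using QuotientGroup.induction_on with
      | H a =>
        induction y using QuotientGroup.induction_on with
        | H b =>
          intro hab
          rw [orbMap_mk, orbMap_mk] at hab
          refine QuotientGroup.eq.2 ?_
          change π (a⁻¹ * b) s₀ = s₀
          rw [map_mul, Equiv.Perm.mul_apply, ← hab, map_inv]
          simp
    · intro s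
      obtain ⟨g, hg⟩ := hπ.2 s₀ s
      exact ⟨(g : D ⧸ G.stab π s₀), hg⟩
  rw [Subgroup.index, ← Nat.card_eq_fintype_card]
  exact (Nat.card_congr (Equiv.ofBijective _ hbij)).symm

/-- `cores ∘ res = [D_E : P]` for `D ⧸ P → Σ` -/
theorem corB_resB_orbMap [Fintype Sg] (hπ : IsTrans π) (s₀ : Sg) (P : Subgroup D)
    (hP : ∀ h ∈ P, π h s₀ = s₀) [Fintype (D ⧸ P)] (x : Br 𝓛 α π) :
    corB 𝓛 α (isSetMap_orbMap π s₀ P hP) (resB 𝓛 α (isSetMap_orbMap π s₀ P hP) x) =
      P.relIndex (G.stab π s₀) • x := by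
  obtain ⟨m, hm, hpp⟩ := exists_degree (isSetMap_orbMap π s₀ P hP) hπ
  have h1 : Fintype.card (D ⧸ P) = P.index := by
    rw [Subgroup.index, Nat.card_eq_fintype_card]
  have h2 : P.relIndex (G.stab π s₀) * (G.stab π s₀).index = P.index :=
    Subgroup.relIndex_mul_index (fun h hh => hP h hh)
  have h3 : 0 < (G.stab π s₀).index := by
    rw [← card_eq_index_stab hπ s₀]
    haveI := hπ.1
    exact Fintype.card_pos
  have h4 : m = P.relIndex (G.stab π s₀) := by
    rw [card_eq_index_stab hπ s₀, h1, ← h2] at hm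
    exact Nat.eq_of_mul_eq_mul_right h3 hm
  rw [corB, resB, ← H2c_comp 𝓛 (isHom_push (gm α) (isSetMap_orbMap π s₀ P hP))
    (isHom_pull (gm α) (isSetMap_orbMap π s₀ P hP)), ← h4]
  exact H2c_eq_nsmul _ m (fun a => hpp _ a) x

end Fermat.Agent.S55.B7
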