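import Fermat.Agent.S55.T.Kummer
import Fermat.Agent.S55.T.Torsor
import Fermat.Agent.S55.A.Basic

/-!
# S55 / B7 : the local Brauer group (cohomological half of layer B) — definitions and interface

Abstract setting: `D` a group with levels `𝓛`, acting on a field `Ω` (`GalAct 𝓛 α`), `I ≤ D` the
inertia subgroup, `w : Additive Ωˣ →+ Γ` a `D`-invariant valuation with values in a torsion free
group.  "Local fields" are the finite smooth TRANSITIVE `D`-sets `π` (`Fld 𝓛 π`);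
`E^× = Ex α π = H⁰(Fn π 𝔾_m)`, `Br E = Br 𝓛 α π = H²(Fn π 𝔾_m)`.

`LocArith` = the list of ALL arithmetic inputs (to be delivered by layer B1-B6 + C.K1).
Target (file `Main.lean`): `Nat.card (H² (Fn π T)) = p` and `eps_*` injective (= field `lb` of `Datum`).
-/

set_option autoImplicit false

namespace Fermat.Agent.S55.B7

open T

variable {D : Type} [Group D] (𝓛 : Lvl D) {Ω : Type} [Field Ω] (α : D →* RingAut Ω)

/-- `Br(Σ)` -/
abbrev Br {Sg : Type} (π : D →* Equiv.Perm Sg) : Type := H2 𝓛 (Fn π (gm α))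

/-- `E^×` -/
abbrev Ex {Sg : Type} (π : D →* Equiv.Perm Sg) : AddSubgroup (Sg → Additive Ωˣ) :=
  H0 (Fn π (gm α))

variable {Sg Sg' : Type} {π : D →* Equiv.Perm Sg} {π' : D →* Equiv.Perm Sg'} {u : Sg' → Sg}

/-- restriction `Br Σ → Br Σ'` -/
def resB (hu : IsSetMap π π' u) : Br 𝓛 α π →+ Br 𝓛 α π' := H2c 𝓛 (isHom_pull (gm α) hu)

/-- corestriction `Br Σ' → Br Σ` -/
noncomputable def corB [Fintype Sg'] (hu : IsSetMap π π' u) : Br 𝓛 α π' →+ Br 𝓛 α π :=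
  H2c 𝓛 (isHom_push (gm α) hu)

/-- `E^× → E'^×` -/
def resE (hu : IsSetMap π π' u) : ↥(Ex α π) →+ ↥(Ex α π') := H0c (isHom_pull (gm α) hu)

/-- the norm `E'^× → E^×` -/
noncomputable def norE [Fintype Sg'] (hu : IsSetMap π π' u) : ↥(Ex α π') →+ ↥(Ex α π) :=
  H0c (isHom_push (gm α) hu)

variable {α}

@[simp] theorem coe_resE (hu : IsSetMap π π' u) (b : ↥(Ex α π)) (s : Sg') :
    (resE α hu b).1 s = b.1 (u s) := rfl

theorem coe_norE [Fintype Sg'] (hu : IsSetMap π π' u) (c : ↥(Ex α π')) :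
    (norE α hu c).1 = push _ u c.1 := rfl

variable (π)

/-- "local field" = finite smooth transitive `D`-set -/
structure Fld : Prop where
  sm : SmoothSet π 𝓛
  tr : IsTrans π

variable {π}

/-- the map `u : Σ' → Σ` is unramified: the inertia group of a point of `Σ` fixes the fibre -/
def Unr (I : Subgroup D) (π : D →* Equiv.Perm Sg) (π' : D →* Equiv.Perm Sg') (u : Sg' → Sg) : Prop :=
  ∀ g ∈ I, ∀ s' : Sg', π g (u s') = u s' → π' g s' = s'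

/-- `μ_p ⊂ E` -/
def MuIn {p : ℕ} (χ : D →* (ZMod p)ˣ) (π : D →* Equiv.Perm Sg) : Prop :=
  ∀ g s, π g s = s → χ g = 1

/-- the trivial `D`-set -/
def piPt (D : Type) [Group D] : D →* Equiv.Perm Unit := 1

/-- **the arithmetic inputs** -/
structure LocArith (α : D →* RingAut Ω) (p : ℕ) (χ : D →* (ZMod p)ˣ) (I : Subgroup D)
    {Γ : Type} [AddCommGroup Γ] (w : Additive Ωˣ →+ Γ) : Prop where
  /-- `Γ` is torsion free -/
  tf : ∀ (n : ℕ) (γ : Γ), n ≠ 0 → n • γ = 0 → γ = 0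
  /-- `w` is `D`-invariant -/
  inv : ∀ g x, w (gm α g x) = w x
  /-- (L1) the value group of the base field `Ω^D` is infinite cyclic -/
  base : ∃ ϖ : Additive Ωˣ, (∀ g, gm α g ϖ = ϖ) ∧ w ϖ ≠ 0 ∧
    ∀ b : Additive Ωˣ, (∀ g, gm α g b = b) → ∃ k : ℤ, w b = k • w ϖ
  /-- (L2) the unramified tower `E ⊂ E_p ⊂ E_{p²}` -/
  tower : ∀ {Sg : Type} [Fintype Sg] (π : D →* Equiv.Perm Sg), Fld 𝓛 π →
    ∃ (S₁ S₂ : Type) (_ : Fintype S₁) (_ : Fintype S₂) (π₁ : D →* Equiv.Perm S₁)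
      (π₂ : D →* Equiv.Perm S₂) (u₁ : S₁ → Sg) (u₂ : S₂ → S₁) (σ₁ : Equiv.Perm S₁)
      (σ₂ : Equiv.Perm S₂), Fld 𝓛 π₁ ∧ Fld 𝓛 π₂ ∧ CycTorsor p π π₁ u₁ σ₁ ∧
      CycTorsor (p ^ 2) π π₂ (u₁ ∘ u₂) σ₂ ∧ CycTorsor p π₁ π₂ u₂ (σ₂ ^ p) ∧
      Unr I π π₁ u₁ ∧ Unr I π π₂ (u₁ ∘ u₂)
  /-- (L3) an unramified cyclic extension has the same value group -/
  val_unr : ∀ {Sg Sg' : Type} [Fintype Sg] [Fintype Sg'] (π : D →* Equiv.Perm Sg)
    (π' : D →* Equiv.Perm Sg') (u : Sg' → Sg) (σ : Equiv.Perm Sg') (n : ℕ), Fld 𝓛 π → Fld 𝓛 π' →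
    CycTorsor n π π' u σ → Unr I π π' u →
    ∀ c : ↥(Ex α π'), ∃ b : ↥(Ex α π), ∀ s', w (c.1 s') = w (b.1 (u s'))
  /-- (L4) units are norms from an unramified cyclic extension of degree `p` -/
  unit_norm : ∀ {Sg Sg' : Type} [Fintype Sg] [Fintype Sg'] (π : D →* Equiv.Perm Sg)
    (π' : D →* Equiv.Perm Sg') (u : Sg' → Sg) (σ : Equiv.Perm Sg'), Fld 𝓛 π → Fld 𝓛 π' →
    ∀ T : CycTorsor p π π' u σ, Unr I π π' u →
    ∀ b : ↥(Ex α π), (∀ s, w (b.1 s) = 0) → ∃ c : ↥(Ex α π'), norE α T.map c = b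
  /-- (L5) a cyclic extension of degree `p` with the same value group is unramified -/
  unr_of_val : ∀ {Sg Sg' : Type} [Fintype Sg] [Fintype Sg'] (π : D →* Equiv.Perm Sg)
    (π' : D →* Equiv.Perm Sg') (u : Sg' → Sg) (σ : Equiv.Perm Sg'), Fld 𝓛 π → Fld 𝓛 π' →
    CycTorsor p π π' u σ →
    (∀ c : ↥(Ex α π'), ∃ b : ↥(Ex α π), ∀ s', w (c.1 s') = w (b.1 (u s'))) → Unr I π π' u
  /-- (L7) uniqueness of the unramified extension of degree `p` -/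
  unr_unique : ∀ {Sg S₁ S₂ : Type} [Fintype Sg] [Fintype S₁] [Fintype S₂] (π : D →* Equiv.Perm Sg)
    (π₁ : D →* Equiv.Perm S₁) (π₂ : D →* Equiv.Perm S₂) (u₁ : S₁ → Sg) (u₂ : S₂ → Sg)
    (σ₁ : Equiv.Perm S₁) (σ₂ : Equiv.Perm S₂), Fld 𝓛 π → Fld 𝓛 π₁ → Fld 𝓛 π₂ →
    CycTorsor p π π₁ u₁ σ₁ → CycTorsor p π π₂ u₂ σ₂ → Unr I π π₁ u₁ → Unr I π π₂ u₂ →
    ∃ j : S₁ → S₂, IsSetMap π₂ π₁ j ∧ ∀ s, u₂ (j s) = u₁ s
  /-- (L6) the norm index of a cyclic extension of degree `p` is `≤ p` (if `μ_p ⊂ E`) -/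
  index_le : ∀ {Sg Sg' : Type} [Fintype Sg] [Fintype Sg'] (π : D →* Equiv.Perm Sg)
    (π' : D →* Equiv.Perm Sg') (u : Sg' → Sg) (σ : Equiv.Perm Sg'), Fld 𝓛 π → Fld 𝓛 π' →
    MuIn χ π → ∀ T : CycTorsor p π π' u σ,
    (norE α T.map).range.index ≠ 0 ∧ (norE α T.map).range.index ≤ p

end Fermat.Agent.S55.B7
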