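import Fermat.Agent.S55.B7.CosetB

/-!
# S55 / B7 : dictionary `D`-sets ↔ subgroups, abstract part  (any group `D`; no arithmetic)

keys (all elementary; only `Coh/FnBasic` (`IsTrans`, `cosetPerm`, `IsSetMap`), `T/Torsor.lean` (`CycTorsor`),
`A/SylowTower.lean` (`rightMul`, `rightMul_mk`, `rightMul_pow_mk`), `B7/Coset.lean` (`orbMap`), `G/Sets.lean` (`G.stab`)):

* [S55/DICT-G1] `GCyc.pow_mem_iff`, `GCyc.cycTorsor` : `D/H' → D/H` is a cyclic torsor with `σ (g H') = g t H'`
  (copy `PStep.cycTorsor` in `A/SylowTower.lean`; `t^k ∈ H' ↔ n ∣ k` by division with remainder from `pow`, `min`).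
* [S55/DICT-G2] `CycTorsor.exists_gcyc` : choose `t` with `t s' = σ s'` (transitivity).  `t^i s' = σ^i s'` by induction
  (`T.comm`: `π' g (σ x) = σ (π' g x)`).  `le`: `g s' = s' ⇒ g (u s') = u (g s') = u s'`.  `mem`: `u (σ s') = u s'` (`T.fib`).
  `conj`: `t⁻¹ h t s' = t⁻¹ h σ s' = t⁻¹ σ h s' = t⁻¹ σ s' = s'`; `t⁻¹ s' = σ⁻¹ s'`.  `gen`: `g s'` lies in the fibre of `u s'`, so `g s' = σ^k s' = σ^(k % n) s'`
  (`T.fib`, `T.pow`).  `pow`, `min`: `T.pow`, `T.free`.
* [S55/DICT-G3] `CycTorsor.of_bijective`, `orbMap_bijective`, `exists_map_of_stab_le` (`j (g s₁) = g s₂`, via `Classical.choose`).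
* [S55/DICT-G4] `unr_iff` (`I` normal: conjugate by `h` with `h s₀' = s'`), `index_le_of_reps`.
-/

set_option autoImplicit false

namespace Fermat.Agent.S55.B7

open T

variable {D : Type} [Group D]

/-- group theoretic data of a cyclic step `H' ≤ H`, `H = ⋃_{i<n} t^i H'` -/
structure GCyc (H H' : Subgroup D) (t : D) (n : ℕ) : Prop where
  pos : 0 < n
  le : H' ≤ H
  mem : t ∈ H
  conj : ∀ h ∈ H', t * h * t⁻¹ ∈ H' ∧ t⁻¹ * h * t ∈ H'
  gen : ∀ g ∈ H, ∃ i < n, (t ^ i)⁻¹ * g ∈ H'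
  pow : t ^ n ∈ H'
  min : ∀ i, 0 < i → i < n → t ^ i ∉ H'

section G1

variable {H H' : Subgroup D} {t : D} {n : ℕ}

theorem GCyc.pow_mem_iff (h : GCyc H H' t n) (k : ℕ) : t ^ k ∈ H' ↔ n ∣ k := by
  constructor
  · intro hk
    have h1 : t ^ k = (t ^ n) ^ (k / n) * t ^ (k % n) := by
      rw [← pow_mul, ← pow_add, Nat.div_add_mod]
    have h2 : t ^ (k % n) ∈ H' := by
      have h3 : t ^ (k % n) = ((t ^ n) ^ (k / n))⁻¹ * t ^ k := by rw [h1]; group
      rw [h3]
      exact H'.mul_mem (H'.inv_mem (H'.pow_mem h.pow _)) hk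
    by_contra hcon
    have h4 : 0 < k % n := Nat.pos_of_ne_zero fun h0 => hcon (Nat.dvd_of_mod_eq_zero h0)
    exact h.min _ h4 (Nat.mod_lt _ h.pos) h2
  · rintro ⟨m, rfl⟩
    rw [pow_mul]
    exact H'.pow_mem h.pow _

/-- `g H' ↦ g t H'` -/
noncomputable def GCyc.sig (h : GCyc H H' t n) : Equiv.Perm (D ⧸ H') :=
  rightMul H' t (fun x hx => (h.conj x hx).1) (fun x hx => (h.conj x hx).2)

theorem GCyc.sig_pow_mk (h : GCyc H H' t n) (k : ℕ) (g : D) :
    (h.sig ^ k) (g : D ⧸ H') = ((g * t ^ k : D) : D ⧸ H') :=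
  rightMul_pow_mk _ _ _ _ _ _

theorem GCyc.cycTorsor (h : GCyc H H' t n) :
    CycTorsor n (cosetPerm H) (cosetPerm H') (Subgroup.quotientMapOfLE h.le) h.sig where
  pos := h.pos
  map := by
    intro g s
    induction s using QuotientGroup.induction_on with
    | H x => rfl
  comm := by
    intro g s
    induction s using QuotientGroup.induction_on with
    | H x =>
      change (((g * x) * t : D) : D ⧸ H') = ((g * (x * t) : D) : D ⧸ H')
      rw [mul_assoc]
  surj := by
    intro s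
    induction s using QuotientGroup.induction_on with
    | H x => exact ⟨(x : D ⧸ H'), rfl⟩
  fib := by
    intro s s₂
    induction s using QuotientGroup.induction_on with
    | H x =>
    induction s₂ using QuotientGroup.induction_on with
    | H y =>
      rw [Subgroup.quotientMapOfLE_apply_mk, Subgroup.quotientMapOfLE_apply_mk, QuotientGroup.eq]
      constructor
      · intro hxy
        obtain ⟨i, -, hi⟩ := h.gen _ hxy
        refine ⟨i, ?_⟩
        rw [h.sig_pow_mk, QuotientGroup.eq]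
        have e : (x * t ^ i)⁻¹ * y = (t ^ i)⁻¹ * (x⁻¹ * y) := by group
        rw [e]; exact hi
      · rintro ⟨i, hi⟩
        rw [h.sig_pow_mk, QuotientGroup.eq] at hi
        have e : x⁻¹ * y = t ^ i * ((x * t ^ i)⁻¹ * y) := by group
        rw [e]
        exact H.mul_mem (H.pow_mem h.mem i) (h.le hi)
  pow := by
    ext s
    induction s using QuotientGroup.induction_on with
    | H x =>
      rw [h.sig_pow_mk, Equiv.Perm.one_apply, QuotientGroup.eq]
      have e : (x * t ^ n)⁻¹ * x = (t ^ n)⁻¹ := by group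
      rw [e]
      exact H'.inv_mem h.pow
  free := by
    intro s k hk
    induction s using QuotientGroup.induction_on with
    | H x =>
      rw [h.sig_pow_mk, QuotientGroup.eq] at hk
      have e : (x * t ^ k)⁻¹ * x = (t ^ k)⁻¹ := by group
      rw [e, H'.inv_mem_iff] at hk
      exact (h.pow_mem_iff k).1 hk

end G1

variable {Sg Sg' : Type} {π : D →* Equiv.Perm Sg} {π' : D →* Equiv.Perm Sg'} {u : Sg' → Sg}
  {σ : Equiv.Perm Sg'} {n : ℕ}

section G2

theorem CycTorsor.exists_gcyc (T : CycTorsor n π π' u σ) (htr' : IsTrans π') (s' : Sg') :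
    ∃ t : D, GCyc (G.stab π (u s')) (G.stab π' s') t n ∧ ∀ i : ℕ, π' (t ^ i) s' = (σ ^ i) s' := by
  obtain ⟨t, ht⟩ := htr'.2 s' (σ s')
  have hpow : ∀ i : ℕ, π' (t ^ i) s' = (σ ^ i) s' := by
    intro i
    induction i with
    | zero => simp
    | succ i ih =>
      rw [pow_succ, map_mul, Equiv.Perm.mul_apply, ht, ← T.comm, ih, pow_succ',
        Equiv.Perm.mul_apply]
  have hcomm' : ∀ g x, π' g (σ⁻¹ x) = σ⁻¹ (π' g x) := by
    intro g x
    apply σ.injective
    rw [T.comm]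
    simp
  have htinv : π' t (σ⁻¹ s') = s' := by rw [hcomm', ht]; simp
  have htinv' : π' t⁻¹ s' = σ⁻¹ s' := by
    rw [map_inv, Equiv.Perm.inv_eq_iff_eq, htinv]
  have htinv'' : π' t⁻¹ (σ s') = s' := by
    rw [map_inv, Equiv.Perm.inv_eq_iff_eq, ht]
  refine ⟨t, ⟨T.pos, ?_, ?_, ?_, ?_, ?_, ?_⟩, hpow⟩
  · intro g hg
    rw [G.mem_stab] at hg ⊢
    rw [← T.map, hg]
  · rw [G.mem_stab, ← T.map, ht]
    exact ((T.fib s' (σ s')).2 ⟨1, by simp⟩).symm
  · intro h hh
    rw [G.mem_stab] at hh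
    constructor
    · rw [G.mem_stab, map_mul, map_mul, Equiv.Perm.mul_apply, Equiv.Perm.mul_apply, htinv',
        hcomm', hh, htinv]
    · rw [G.mem_stab, map_mul, map_mul, Equiv.Perm.mul_apply, Equiv.Perm.mul_apply, ht,
        ← T.comm, hh, htinv'']
  · intro g hg
    rw [G.mem_stab] at hg
    have h1 : u s' = u (π' g s') := by rw [T.map, hg]
    obtain ⟨k, hk⟩ := (T.fib _ _).1 h1
    refine ⟨k % n, Nat.mod_lt _ T.pos, ?_⟩
    rw [G.mem_stab, map_mul, Equiv.Perm.mul_apply, ← hk, pow_eq_pow_mod k T.pow, ← hpow, map_inv]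
    simp
  · rw [G.mem_stab, hpow, T.pow]
    rfl
  · intro i hi hin hmem
    rw [G.mem_stab, hpow] at hmem
    exact absurd (Nat.le_of_dvd hi (T.free _ _ hmem)) (not_le.2 hin)

end G2

section G3

theorem CycTorsor.of_bijective {Sg₀ : Type} {π₀ : D →* Equiv.Perm Sg₀} {u₀ : Sg' → Sg₀}
    (T : CycTorsor n π₀ π' u₀ σ) {e : Sg₀ → Sg} (he : IsSetMap π π₀ e) (hb : Function.Bijective e) :
    CycTorsor n π π' (e ∘ u₀) σ where
  pos := T.pos
  map := fun g s => by
    rw [Function.comp_apply, Function.comp_apply, T.map, he]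
  comm := T.comm
  surj := hb.surjective.comp T.surj
  fib := fun s t => by
    rw [Function.comp_apply, Function.comp_apply, hb.injective.eq_iff]
    exact T.fib s t
  pow := T.pow
  free := T.free

theorem orbMap_bijective (htr : IsTrans π) (s₀ : Sg) :
    Function.Bijective (orbMap π s₀ (G.stab π s₀) (fun _ h => h)) := by
  constructor
  · intro a b
    induction a using QuotientGroup.induction_on with
    | H x =>
    induction b using QuotientGroup.induction_on with
    | H y =>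
      intro hxy
      rw [orbMap_mk, orbMap_mk] at hxy
      rw [QuotientGroup.eq, G.mem_stab, map_mul, Equiv.Perm.mul_apply, ← hxy, map_inv]
      simp
  · intro s
    obtain ⟨g, hg⟩ := htr.2 s₀ s
    exact ⟨(g : D ⧸ G.stab π s₀), hg⟩

theorem exists_map_of_stab_le {S₁ S₂ : Type} {π₁ : D →* Equiv.Perm S₁} {π₂ : D →* Equiv.Perm S₂}
    (htr : IsTrans π₁) (s₁ : S₁) (s₂ : S₂) (h : G.stab π₁ s₁ ≤ G.stab π₂ s₂) :
    ∃ j : S₁ → S₂, IsSetMap π₂ π₁ j ∧ j s₁ = s₂ := by
  have hex : ∀ x : S₁, ∃ g : D, π₁ g s₁ = x := fun x => htr.2 s₁ x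
  choose c hc using hex
  have key : ∀ g : D, π₂ (c (π₁ g s₁)) s₂ = π₂ g s₂ := by
    intro g
    have h1 : g⁻¹ * c (π₁ g s₁) ∈ G.stab π₁ s₁ := by
      rw [G.mem_stab, map_mul, Equiv.Perm.mul_apply, hc, map_inv]
      simp
    have h2 := h h1
    rw [G.mem_stab, map_mul, Equiv.Perm.mul_apply, map_inv, Equiv.Perm.inv_eq_iff_eq] at h2
    exact h2
  refine ⟨fun x => π₂ (c x) s₂, fun g x => ?_, ?_⟩
  · have h1 : π₁ g x = π₁ (g * c x) s₁ := by rw [map_mul, Equiv.Perm.mul_apply, hc]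
    change π₂ (c (π₁ g x)) s₂ = π₂ g (π₂ (c x) s₂)
    rw [h1, key, map_mul, Equiv.Perm.mul_apply]
  · have h1 := key 1
    simpa using h1

end G3

section G4

theorem unr_iff (I : Subgroup D) [I.Normal] (hu : IsSetMap π π' u) (htr' : IsTrans π') (s' : Sg') :
    Unr I π π' u ↔ I ⊓ G.stab π (u s') ≤ G.stab π' s' := by
  constructor
  · intro h g hg
    exact h g hg.1 s' hg.2
  · intro h g hg x hx
    obtain ⟨k, rfl⟩ := htr'.2 s' x
    have h1 : k⁻¹ * g * k ∈ I := by
      have := (inferInstance : I.Normal).conj_mem g hg k⁻¹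
      rwa [inv_inv] at this
    have h2 : k⁻¹ * g * k ∈ G.stab π (u s') := by
      rw [G.mem_stab, map_mul, map_mul, Equiv.Perm.mul_apply, Equiv.Perm.mul_apply, ← hu, hx, hu,
        map_inv]
      simp
    have h3 := h ⟨h1, h2⟩
    rw [G.mem_stab, map_mul, map_mul, Equiv.Perm.mul_apply, Equiv.Perm.mul_apply, map_inv,
      Equiv.Perm.inv_eq_iff_eq] at h3
    exact h3

/-- a subgroup with at most `p` coset representatives has index `≤ p` -/
theorem index_le_of_reps {E : Type*} [AddCommGroup E] (N : AddSubgroup E) (p : ℕ) (R : Finset E)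
    (hR : R.card ≤ p) (h : ∀ x : E, ∃ r ∈ R, x - r ∈ N) : N.index ≠ 0 ∧ N.index ≤ p := by
  have hs : Function.Surjective (fun r : ↥R => ((r : E) : E ⧸ N)) := by
    intro q
    induction q using QuotientAddGroup.induction_on with
    | H x =>
      obtain ⟨r, hr, hx⟩ := h x
      refine ⟨⟨r, hr⟩, ?_⟩
      change ((r : E) : E ⧸ N) = (x : E ⧸ N)
      rw [QuotientAddGroup.eq]
      have e : -r + x = x - r := by abel
      rw [e]
      exact hx
  have hfin : Finite (E ⧸ N) := Finite.of_surjective _ hs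
  have hle := Nat.card_le_card_of_surjective _ hs
  rw [Nat.card_eq_fintype_card (α := ↥R), Fintype.card_coe] at hle
  exact ⟨Nat.card_pos.ne', hle.trans hR⟩

end G4

end Fermat.Agent.S55.B7
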