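import Fermat.Agent.S55.B7.DictGrp
import Fermat.Agent.S55.T.Inst
import Fermat.Agent.S55.B.Padic

/-!
# S55 / B7 : dictionary `Dq q`-sets ↔ open subgroups of `Dq q` inside `GQ`, concrete part

`π : ↥(Dq q) →* Perm Σ`.  `St π s ≤ GQ` = image of the stabiliser of `s`.  `alD q = alQ.comp (Dq q).subtype`.
`ev b s : Qb` = the value of `b : Σ → Additive Qbˣ` at `s`.

keys:
* [S55/DICT-Q1] section `Sub`: `mem_St`, `St_le`, `isOp_St`, `St_subgroupOf`, `isOpen_subgroupOf`, `St_cosetPerm`, `St_mono`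
  (`(lvlD q).sets = (fun U => U.comap (Dq q).subtype) '' lvlQ.sets`, `lvlQ.sets = {F.fixingSubgroup | F finite}`; all by unfolding).
* [S55/DICT-Q2] section `Cy`: `GCyc.cyc` (`B.IsOp.cyc`, every field by `mem_St`-like unfolding of `Subgroup.map`), `gcyc_of_cyc`
  (`min` from `prim`: `t^i ∈ H' ⇒ t^i θ = θ = t^0 θ ⇒ i = 0`).
* [S55/DICT-Q3] section `Ev`: `ev_apply` (`b ∈ H0 (Fn π (gm α))` at `g`, evaluated at `π g s`: `g (b (g⁻¹ g s)) = b (g s)`), `ev_mem_Fx`, `exists_ev_eq`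
  (`b s := g_s x`, `g_s` chosen with `g_s s₀ = s`; invariance: `g g_{g⁻¹ s}` and `g_s` differ by an element of the stabiliser of `s₀`), `Ex_ext`.
* [S55/DICT-Q4] section `Nm`: `ev_norE` (`T.push_apply`, `ev` of a sum in `Additive` = product, `ev_apply`), `wA`, `wA_gm`.
-/

set_option autoImplicit false

noncomputable section

namespace Fermat.Agent.S55.B7

open T ExtCitation

variable {q : Nat.Primes}

/-- the action of `Dq q` on `ℚ̄` -/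
abbrev alD (q : Nat.Primes) : ↥(Dq q) →* RingAut Qb := alQ.comp (Dq q).subtype

variable {Sg Sg' : Type} {π : ↥(Dq q) →* Equiv.Perm Sg} {π' : ↥(Dq q) →* Equiv.Perm Sg'}
  {u : Sg' → Sg} {σ : Equiv.Perm Sg'} {n : ℕ}

section Sub

/-- the stabiliser of `s`, as a subgroup of `GQ` -/
def St (π : ↥(Dq q) →* Equiv.Perm Sg) (s : Sg) : Subgroup GQ := (G.stab π s).map (Dq q).subtype

theorem mem_St {s : Sg} {g : GQ} : g ∈ St π s ↔ ∃ h : g ∈ Dq q, π ⟨g, h⟩ s = s := by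
  constructor
  · rintro ⟨x, hx, rfl⟩
    exact ⟨x.2, hx⟩
  · rintro ⟨h, hg⟩
    exact ⟨⟨g, h⟩, hg, rfl⟩

theorem coe_mem_St {s : Sg} {g : ↥(Dq q)} : (g : GQ) ∈ St π s ↔ π g s = s := by
  rw [mem_St]
  exact ⟨fun ⟨_, h⟩ => h, fun h => ⟨g.2, h⟩⟩

theorem St_le (s : Sg) : St π s ≤ Dq q := by
  intro g hg
  obtain ⟨h, -⟩ := mem_St.1 hg
  exact h

theorem isOp_St (hπ : SmoothSet π (lvlD q)) (s : Sg) : B.IsOp q (St π s) := by
  obtain ⟨_, ⟨_, ⟨F, hF, rfl⟩, rfl⟩, hu⟩ := hπ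
  refine ⟨St_le s, F, hF, ?_⟩
  intro g hg
  rw [mem_St]
  refine ⟨hg.1, ?_⟩
  rw [hu ⟨g, hg.1⟩ hg.2]
  rfl

theorem St_subgroupOf (s : Sg) : (St π s).subgroupOf (Dq q) = G.stab π s := by
  ext g
  rw [Subgroup.mem_subgroupOf, coe_mem_St]
  rfl

theorem St_mono (hu : IsSetMap π π' u) (s' : Sg') : St π' s' ≤ St π (u s') := by
  intro g hg
  obtain ⟨h, hg⟩ := mem_St.1 hg
  exact mem_St.2 ⟨h, by rw [← hu, hg]⟩

theorem isOpen_subgroupOf {H : Subgroup GQ} (h : B.IsOp q H) :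
    (lvlD q).IsOpen (H.subgroupOf (Dq q)) := by
  obtain ⟨F, hF, hle⟩ := h.op
  refine ⟨_, ⟨_, ⟨F, hF, rfl⟩, rfl⟩, ?_⟩
  intro g hg
  exact hle ⟨g.2, hg⟩

theorem stab_cosetPerm (K : Subgroup ↥(Dq q)) :
    G.stab (cosetPerm K) ((1 : ↥(Dq q)) : ↥(Dq q) ⧸ K) = K := by
  ext g
  rw [G.mem_stab]
  change ((g * 1 : ↥(Dq q)) : ↥(Dq q) ⧸ K) = ((1 : ↥(Dq q)) : ↥(Dq q) ⧸ K) ↔ _
  rw [mul_one, QuotientGroup.eq, mul_one, K.inv_mem_iff]

theorem St_cosetPerm {H : Subgroup GQ} (h : H ≤ Dq q) :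
    St (cosetPerm (H.subgroupOf (Dq q))) ((1 : ↥(Dq q)) : ↥(Dq q) ⧸ H.subgroupOf (Dq q)) = H := by
  unfold St
  rw [stab_cosetPerm]
  ext g
  constructor
  · rintro ⟨x, hx, rfl⟩
    exact hx
  · intro hg
    exact ⟨⟨g, h hg⟩, hg, rfl⟩

end Sub

section Cy

/-- group data in `Dq q` ⇒ `B.Cyc` in `GQ` -/
theorem GCyc.cyc {K K' : Subgroup ↥(Dq q)} {t : ↥(Dq q)} (h : GCyc K K' t n)
    (hK' : B.IsOp q (K'.map (Dq q).subtype)) :
    B.Cyc (K.map (Dq q).subtype) (K'.map (Dq q).subtype) (t : GQ) n := by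
  have hmem : ∀ (L : Subgroup ↥(Dq q)) (x : ↥(Dq q)), (x : GQ) ∈ L.map (Dq q).subtype ↔ x ∈ L := by
    intro L x
    constructor
    · rintro ⟨y, hy, hyx⟩
      rwa [← Subtype.ext hyx]
    · intro hx
      exact ⟨x, hx, rfl⟩
  refine B.IsOp.cyc hK' ?_ (Subgroup.map_mono h.le) ((hmem _ _).2 h.mem) h.pos ?_ ?_ ?_ ?_
  · rintro _ ⟨x, -, rfl⟩
    exact x.2
  · rintro _ ⟨x, hx, rfl⟩
    exact ⟨(hmem K' (t * x * t⁻¹)).2 (h.conj x hx).1, (hmem K' (t⁻¹ * x * t)).2 (h.conj x hx).2⟩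
  · rintro _ ⟨x, hx, rfl⟩
    obtain ⟨i, hi, hx'⟩ := h.gen x hx
    exact ⟨i, hi, (hmem K' ((t ^ i)⁻¹ * x)).2 hx'⟩
  · exact (hmem K' (t ^ n)).2 h.pow
  · intro i hi hin hmem'
    exact h.min i hi hin ((hmem K' (t ^ i)).1 hmem')

/-- `B.Cyc` in `GQ` ⇒ group data in `Dq q` -/
theorem gcyc_of_cyc {H H' : Subgroup GQ} {t : GQ} (hc : B.Cyc H H' t n) (hH : H ≤ Dq q) :
    GCyc (H.subgroupOf (Dq q)) (H'.subgroupOf (Dq q)) ⟨t, hH hc.mem⟩ n := by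
  refine ⟨hc.pos, fun x hx => hc.le hx, hc.mem, fun x hx => ⟨(hc.conj _ hx).1, (hc.conj _ hx).2⟩,
    fun x hx => ?_, hc.pow, ?_⟩
  · obtain ⟨i, hi, hx'⟩ := hc.gen _ hx
    exact ⟨i, hi, hx'⟩
  · intro i hi hin hmem
    obtain ⟨θ, hθ, hinj⟩ := hc.prim
    have h1 : (t ^ i) θ = θ := B.mem_Fx.1 hθ _ hmem
    have h2 := hinj i hin 0 hc.pos (by rw [h1, pow_zero]; rfl)
    omega

end Cy

section Ev

/-- the value of `b` at `s` -/
def ev (b : Sg → Additive Qbˣ) (s : Sg) : Qb := (((b s).toMul : Qbˣ) : Qb)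

theorem ev_ne_zero (b : Sg → Additive Qbˣ) (s : Sg) : ev b s ≠ 0 := Units.ne_zero _

theorem ev_apply (b : ↥(Ex (alD q) π)) (g : ↥(Dq q)) (s : Sg) :
    ev b.1 (π g s) = (g : GQ) (ev b.1 s) := by
  have h := congrFun (b.2 g) (π g s)
  rw [Fn_apply, Equiv.Perm.coe_inv, Equiv.symm_apply_apply] at h
  unfold ev
  rw [← h]
  rfl

theorem ev_mem_Fx (b : ↥(Ex (alD q) π)) (s : Sg) : ev b.1 s ∈ B.Fx (St π s) := by
  refine B.mem_Fx.2 fun σ hσ => ?_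
  obtain ⟨h, hs⟩ := mem_St.1 hσ
  have h1 := ev_apply b ⟨σ, h⟩ s
  rw [hs] at h1
  exact h1.symm

theorem exists_ev_eq (htr : IsTrans π) (s₀ : Sg) {x : Qb} (hx : x ∈ B.Fx (St π s₀)) (hx0 : x ≠ 0) :
    ∃ b : ↥(Ex (alD q) π), ev b.1 s₀ = x := by
  choose gs hgs using htr.2 s₀
  have hfix : ∀ g : ↥(Dq q), π g s₀ = s₀ → (g : GQ) x = x := fun g hg =>
    B.mem_Fx.1 hx _ (coe_mem_St.2 hg)
  have hne : ∀ s, ((gs s : ↥(Dq q)) : GQ) x ≠ 0 := fun s h0 =>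
    hx0 ((map_eq_zero_iff _ (AlgEquiv.injective _)).1 h0)
  refine ⟨⟨fun s => Additive.ofMul (Units.mk0 (((gs s : ↥(Dq q)) : GQ) x) (hne s)), ?_⟩, ?_⟩
  · intro g
    funext s
    rw [Fn_apply]
    apply Additive.toMul.injective
    apply Units.ext
    change (g : GQ) (((gs ((π g)⁻¹ s) : ↥(Dq q)) : GQ) x) = ((gs s : ↥(Dq q)) : GQ) x
    have h1 : π ((gs s)⁻¹ * g * gs ((π g)⁻¹ s)) s₀ = s₀ := by
      rw [map_mul, map_mul, Equiv.Perm.mul_apply, Equiv.Perm.mul_apply, hgs,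
        Equiv.Perm.coe_inv, Equiv.apply_symm_apply, map_inv, Equiv.Perm.inv_eq_iff_eq, hgs]
    have h2 := hfix _ h1
    have h3 : ((gs s : ↥(Dq q)) : GQ)⁻¹ ((g : GQ) (((gs ((π g)⁻¹ s) : ↥(Dq q)) : GQ) x)) = x := h2
    rw [← h3]
    conv_rhs => rw [← AlgEquiv.mul_apply, mul_inv_cancel, AlgEquiv.one_apply]
    rw [h3]
  · exact hfix _ (hgs s₀)

theorem Ex_ext (htr : IsTrans π) (s₀ : Sg) {b b' : ↥(Ex (alD q) π)} (h : ev b.1 s₀ = ev b'.1 s₀) :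
    b = b' := by
  apply Subtype.ext
  funext s
  obtain ⟨g, rfl⟩ := htr.2 s₀ s
  have h1 : ev b.1 (π g s₀) = ev b'.1 (π g s₀) := by rw [ev_apply, ev_apply, h]
  exact Additive.toMul.injective (Units.ext h1)

end Ev

section Nm

theorem ev_norE [Fintype Sg'] (T : CycTorsor n π π' u σ) {t : ↥(Dq q)} {s' : Sg'}
    (ht : ∀ i : ℕ, π' (t ^ i) s' = (σ ^ i) s') (c : ↥(Ex (alD q) π')) :
    ev (norE (alD q) T.map c).1 (u s') = B.Nm (t : GQ) n (ev c.1 s') := by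
  have hsum : ∀ (I : Finset ℕ) (f : ℕ → Additive Qbˣ),
      ((((∑ i ∈ I, f i : Additive Qbˣ)).toMul : Qbˣ) : Qb) = ∏ i ∈ I, (((f i).toMul : Qbˣ) : Qb) := by
    intro I f
    rw [toMul_sum, Units.coe_prod]
  unfold ev
  rw [coe_norE, T.push_apply, hsum]
  unfold B.Nm
  refine Finset.prod_congr rfl fun i _ => ?_
  rw [← ht i]
  exact ev_apply c (t ^ i) s'

theorem ev_sub (b c : Sg → Additive Qbˣ) (s : Sg) : ev (b - c) s = ev b s / ev c s := by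
  unfold ev
  rw [Pi.sub_apply, toMul_sub, Units.val_div_eq_div_val]

/-- the valuation `wq q` on `Additive Qbˣ` -/
def wA (q : Nat.Primes) : Additive Qbˣ →+ ℝ where
  toFun x := (B.wq q).w ((x.toMul : Qbˣ) : Qb)
  map_zero' := (B.wq q).w_one
  map_add' x y := (B.wq q).map_mul _ _ (Units.ne_zero _) (Units.ne_zero _)

theorem wA_ev (b : Sg → Additive Qbˣ) (s : Sg) : wA q (b s) = (B.wq q).w (ev b s) := rfl

theorem wA_gm (g : ↥(Dq q)) (x : Additive Qbˣ) : wA q (gm (alD q) g x) = wA q x :=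
  B.pres_Dq q _ g.2 _

end Nm

end Fermat.Agent.S55.B7
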