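import Fermat.Agent.S55.B7.Coset

/-!
# S55 / B7 : effaceability of `H²`  (key S55/B7-EFF; formal: Coh/Defs, Coh/LES, A/Basic)

`efface_eta` : `M` smooth, `x ∈ H²(M)` ⇒ there is a normal level `U` such that `η_* x = 0` in
`H²(Fn (D/U) M)`.  Proof: `x = [z]`, `U` normal with `z (g u) (h u') = z g h` and `u • z g h = z g h`
(finitely many values: `z` factors through `(D/U)²`; or use `LC2`, `Smooth.exists_of_finite`).
`b g (s U) := s • z s⁻¹ g` is well defined, level constant, and `d¹ b = η ∘ z`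
(cocycle identity with `(s⁻¹, g, h)`).
`efface` : for `M = Fn π ρ` compose with the equivariant map
`Fn (D/U) (Fn π ρ) → Fn (D/U) ρ`, `f ↦ (s U ↦ f (s U) (s s₀))`  (`U` acts trivially on `Σ`);
the composite `Fn π ρ → Fn (D/U) ρ` is `pull (orbMap π s₀ U _)`.
-/

set_option autoImplicit false

namespace Fermat.Agent.S55.B7

open T

variable {D : Type} [Group D] {𝓛 : Lvl D}

theorem efface_eta {M : Type*} [AddCommGroup M] {ρ : D →* AddMonoid.End M} (hρ : Smooth 𝓛 ρ)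
    (x : H2 𝓛 ρ) (V : Subgroup D) (hV : V ∈ 𝓛.sets) :
    ∃ U ∈ 𝓛.sets, U.Normal ∧ U ≤ V ∧ H2c 𝓛 (isHom_eta (cosetPerm U) ρ) x = 0 := by
  obtain ⟨U₀, hU₀, h0⟩ := exists_eta_H2_eq_zero hρ x
  obtain ⟨W, hW, hWU⟩ := 𝓛.inter U₀ hU₀ V hV
  obtain ⟨U, hU, hUW, hUn⟩ := 𝓛.normal W hW
  exact ⟨U, hU, hUn, fun u hu => (hWU (hUW hu)).2, h0 U (fun u hu => (hWU (hUW hu)).1)⟩

variable {Sg : Type} [Finite Sg] {π : D →* Equiv.Perm Sg} {A : Type*} [AddCommGroup A]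
  {ρ : D →* AddMonoid.End A}

/-- evaluation along the orbit map: `f ↦ (t ↦ f t (orbMap t))` -/
def effEval (A : Type*) [AddCommGroup A] {X : Type*} (w : X → Sg) : (X → (Sg → A)) →+ (X → A) where
  toFun f t := f t (w t)
  map_zero' := rfl
  map_add' _ _ := rfl

theorem isHom_effEval {X : Type*} {π' : D →* Equiv.Perm X} {w : X → Sg} (hw : IsSetMap π π' w) :
    IsHom (Fn π' (Fn π ρ)) (Fn π' ρ) (effEval A w) := by
  intro g f
  ext t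
  change ρ g (f ((π' g)⁻¹ t) ((π g)⁻¹ (w t))) = ρ g (f ((π' g)⁻¹ t) (w ((π' g)⁻¹ t)))
  rw [hw.inv g t]

/-- every class in `H²(Fn π ρ)` dies on `D ⧸ U → Σ` for a small normal level `U` -/
theorem efface (hρ : Smooth 𝓛 ρ) (hπ : SmoothSet π 𝓛) (s₀ : Sg) (x : H2 𝓛 (Fn π ρ))
    (V : Subgroup D) (hV : V ∈ 𝓛.sets) :
    ∃ U ∈ 𝓛.sets, U.Normal ∧ U ≤ V ∧ ∃ hU : ∀ h ∈ U, π h s₀ = s₀,
      H2c 𝓛 (isHom_pull ρ (isSetMap_orbMap π s₀ U hU)) x = 0 := by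
  obtain ⟨V₁, hV₁, hv₁⟩ := hπ
  obtain ⟨W, hW, hWV⟩ := 𝓛.inter V hV V₁ hV₁
  obtain ⟨U, hU, hUn, hUW, h0⟩ := efface_eta (smooth_Fn hρ ⟨V₁, hV₁, hv₁⟩) x W hW
  have hU' : ∀ h ∈ U, π h s₀ = s₀ := fun h hh => by
    rw [hv₁ h (hWV (hUW hh)).2, Equiv.Perm.one_apply]
  refine ⟨U, hU, hUn, fun u hu => (hWV (hUW hu)).1, hU', ?_⟩
  rw [← H2c_H2c 𝓛 (isHom_effEval (isSetMap_orbMap π s₀ U hU')) (isHom_eta (cosetPerm U) (Fn π ρ))
    (isHom_pull ρ (isSetMap_orbMap π s₀ U hU')) (fun _ => rfl) x, h0, map_zero]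

/-- a class which dies on `D ⧸ U` dies on `D ⧸ U'` for `U' ≤ U` -/
theorem efface_mono (s₀ : Sg) (x : H2 𝓛 (Fn π ρ)) {U U' : Subgroup D} (hUU : U' ≤ U)
    (hU : ∀ h ∈ U, π h s₀ = s₀)
    (hx : H2c 𝓛 (isHom_pull ρ (isSetMap_orbMap π s₀ U hU)) x = 0) :
    H2c 𝓛 (isHom_pull ρ (isSetMap_orbMap π s₀ U' (fun h hh => hU h (hUU hh)))) x = 0 := by
  rw [← H2c_H2c 𝓛 (isHom_pull ρ (isSetMap_quotientMapOfLE hUU))
    (isHom_pull ρ (isSetMap_orbMap π s₀ U hU))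
    (isHom_pull ρ (isSetMap_orbMap π s₀ U' (fun h hh => hU h (hUU hh))))
    (fun a => by
      ext t
      exact congrArg a (orbMap_quotientMapOfLE π s₀ hUU hU t)) x, hx, map_zero]

end Fermat.Agent.S55.B7
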