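import Fermat.Agent.S55.B7.StepC

/-!
# S55 / B7 : the main theorem (abstract form)

`lbc` : from `GalAct`, `KumData`, `LocArith`: for every finite smooth transitive `D`-set `π`
`Nat.card (H² (Fn π T)) = p` and `eps_* : H²(Fn π T) → H²(T)` is injective.
-/

set_option autoImplicit false

namespace Fermat.Agent.S55.B7

open T

variable {D : Type} [Group D] {𝓛 : Lvl D} {Ω : Type} [Field Ω] {α : D →* RingAut Ω}
  {p : ℕ} [Fact p.Prime] {χ : D →* (ZMod p)ˣ} {I : Subgroup D} {Γ : Type} [AddCommGroup Γ]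
  {w : Additive Ωˣ →+ Γ} {ζ : Ωˣ}

theorem exists_level_chi (hα : GalAct 𝓛 α) (K : KumData α p χ ζ) :
    ∃ V ∈ 𝓛.sets, ∀ g ∈ V, χ g = 1 := by
  haveI : NeZero p := ⟨(Fact.out : p.Prime).ne_zero⟩
  haveI : Fact (1 < p) := ⟨(Fact.out : p.Prime).one_lt⟩
  obtain ⟨V, hV, h⟩ := hα.smooth (ζ : Ω)
  refine ⟨V, hV, fun g hg => ?_⟩
  have h1 : Units.map ((α g : Ω ≃+* Ω) : Ω →* Ω) ζ = ζ := Units.ext (h g hg)
  have h2 := K.act g
  rw [h1] at h2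
  have h3 : ζ ^ 1 = ζ ^ ((χ g : (ZMod p)ˣ) : ZMod p).val := by rw [pow_one]; exact h2
  have h4 := K.prim.pow_inj (Fact.out : 1 < p) (ZMod.val_lt _) h3
  apply Units.ext
  apply ZMod.val_injective p
  rw [← h4, Units.val_one, ZMod.val_one]

variable {Sg : Type} {π : D →* Equiv.Perm Sg}

theorem nsmul_Brp [Finite Sg] (hα : GalAct 𝓛 α) (K : KumData α p χ ζ) (hπ : SmoothSet π 𝓛)
    (x : H2 𝓛 (Fn π (rhoChi χ))) : p • x = 0 := by
  apply K.kap_injective π hα hπ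
  rw [map_nsmul, map_zero]
  exact (K.exists_kap_eq_iff π hα hπ _).1 ⟨x, rfl⟩

theorem card_Brp (hα : GalAct 𝓛 α) (K : KumData α p χ ζ) (LA : LocArith 𝓛 α p χ I w)
    [Fintype Sg] (F : Fld 𝓛 π) : Nat.card (H2 𝓛 (Fn π (rhoChi χ))) = p := by
  obtain ⟨β, hβ⟩ := exists_beta hα LA F
  have hG := isGen_beta hα LA (exists_level_chi hα K) F hβ
  obtain ⟨b, hb⟩ := (K.exists_kap_eq_iff π hα F.sm β).2 hβ.2.1
  have hGb : IsGen p b := by
    refine ⟨fun h0 => hβ.1 (by rw [← hb, h0, map_zero]), nsmul_Brp hα K F.sm b, fun x _ => ?_⟩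
    obtain ⟨k, hk⟩ := hG.gen (K.kap π 𝓛 x) ((K.exists_kap_eq_iff π hα F.sm _).1 ⟨x, rfl⟩)
    refine ⟨k, K.kap_injective π hα F.sm ?_⟩
    rw [hk, map_nsmul, hb]
  exact hGb.card (nsmul_Brp hα K F.sm)

theorem eps_injective (hα : GalAct 𝓛 α) (K : KumData α p χ ζ) (LA : LocArith 𝓛 α p χ I w)
    [Fintype Sg] (F : Fld 𝓛 π) : Function.Injective (H2c 𝓛 (isHom_eps π (rhoChi χ))) := by
  rw [injective_iff_map_eq_zero]
  intro x hx
  have hpt : IsSetMap (G.ptPerm D) π (fun _ : Sg => ()) := fun _ _ => rfl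
  have Fpt : Fld 𝓛 (G.ptPerm D) := ⟨G.smoothSet_ptPerm 𝓛, G.isTrans_ptPerm⟩
  have h1 : H2c 𝓛 (isHom_push (rhoChi χ) hpt) x = 0 := by
    rw [← G.eta_eps_pt (rhoChi χ) 𝓛 (H2c 𝓛 (isHom_push (rhoChi χ) hpt) x),
      G.eps_push (rhoChi χ) 𝓛 hpt x, hx, map_zero]
  apply K.kap_injective π hα F.sm
  rw [map_zero]
  refine corB_injOn hα LA (exists_level_chi hα K) Fpt F hpt _
    ((K.exists_kap_eq_iff π hα F.sm _).1 ⟨x, rfl⟩) ?_
  rw [corB, K.kap_push hpt x, h1, map_zero]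

/-- **B7, abstract form** -/
theorem lbc (hα : GalAct 𝓛 α) (K : KumData α p χ ζ) (LA : LocArith 𝓛 α p χ I w)
    [Fintype Sg] (π : D →* Equiv.Perm Sg) (hsm : SmoothSet π 𝓛) (htr : IsTrans π) :
    Nat.card (H2 𝓛 (Fn π (rhoChi χ))) = p ∧
      Function.Injective (H2c 𝓛 (isHom_eps π (rhoChi χ))) :=
  ⟨card_Brp hα K LA ⟨hsm, htr⟩, eps_injective hα K LA ⟨hsm, htr⟩⟩

end Fermat.Agent.S55.B7
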