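import Fermat.Agent.S55.B7.DictQ
import Fermat.Agent.S55.B7.Main
import Fermat.Agent.S55.B.LocS
import Fermat.Agent.S55.B.Low
import Fermat.Agent.S55.D.ProCycInst
import Fermat.Agent.S55.G.Pre

/-!
# S55 / B7 : the instance `LocArith` for `Dq q` and the final theorem `lbc_Q`   (helper3)

Assembly of `B/LocS.lean` ((L1)-(L5), (L7) in subgroup language), `B/Low.lean` (`B.index_le` = (L6)) and the dictionary
`B7/DictGrp.lean`, `B7/DictQ.lean`.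
-/

set_option autoImplicit false

noncomputable section

namespace Fermat.Agent.S55.B7

open T ExtCitation

variable {q : Nat.Primes}

/-- inertia inside `Dq q` -/
abbrev inD (q : Nat.Primes) : Subgroup ↥(Dq q) := (Iq q).subgroupOf (Dq q)

instance normal_inD (q : Nat.Primes) : (inD q).Normal := (D.exists_proCyc q).choose_spec.2.normal

variable {Sg Sg' : Type} {π : ↥(Dq q) →* Equiv.Perm Sg} {π' : ↥(Dq q) →* Equiv.Perm Sg'}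
  {u : Sg' → Sg} {σ : Equiv.Perm Sg'} {n : ℕ}

theorem exists_cyc [Fintype Sg'] (T : CycTorsor n π π' u σ) (F' : Fld (lvlD q) π') (s' : Sg') :
    ∃ t : GQ, B.Cyc (St π (u s')) (St π' s') t n ∧
      ∀ c : ↥(Ex (alD q) π'), ev (norE (alD q) T.map c).1 (u s') = B.Nm t n (ev c.1 s') := by
  obtain ⟨t, hg, ht⟩ := CycTorsor.exists_gcyc T F'.tr s'
  exact ⟨t, hg.cyc (isOp_St F'.sm s'), fun c => ev_norE T ht c⟩

theorem unr_iff_St (hu : IsSetMap π π' u) (htr' : IsTrans π') (s' : Sg') :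
    Unr (inD q) π π' u ↔ Iq q ⊓ St π (u s') ≤ St π' s' := by
  rw [unr_iff (inD q) hu htr' s']
  constructor
  · rintro h g ⟨hg1, hg2⟩
    obtain ⟨hD, hfix⟩ := mem_St.1 hg2
    exact mem_St.2 ⟨hD, h ⟨Subgroup.mem_subgroupOf.2 hg1, hfix⟩⟩
  · rintro h g ⟨hg1, hg2⟩
    exact coe_mem_St.1 (h ⟨Subgroup.mem_subgroupOf.1 hg1, coe_mem_St.2 hg2⟩)

theorem w_ev_const (htr : IsTrans π) (b : ↥(Ex (alD q) π)) (s t : Sg) :
    (B.wq q).w (ev b.1 s) = (B.wq q).w (ev b.1 t) := by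
  obtain ⟨g, rfl⟩ := htr.2 t s
  rw [ev_apply]
  exact B.pres_Dq q g.1 g.2 _

theorem orbMap_bijective' (htr : IsTrans π) (s₀ : Sg) (K : Subgroup ↥(Dq q))
    (hK : K = G.stab π s₀) (h : ∀ g ∈ K, π g s₀ = s₀) : Function.Bijective (orbMap π s₀ K h) := by
  subst hK
  exact orbMap_bijective htr s₀

section Fields

variable (p : ℕ) [Fact p.Prime]

theorem la_base : ∃ ϖ : Additive Qbˣ, (∀ g, gm (alD q) g ϖ = ϖ) ∧ wA q ϖ ≠ 0 ∧
    ∀ b : Additive Qbˣ, (∀ g, gm (alD q) g b = b) → ∃ k : ℤ, wA q b = k • wA q ϖ := by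
  have h1 : wA q (Additive.ofMul (Units.mk0 ((q : ℕ) : Qb) (B.q_ne_zero q))) = 1 := B.wq_q q
  refine ⟨Additive.ofMul (Units.mk0 ((q : ℕ) : Qb) (B.q_ne_zero q)), fun g => ?_, ?_, fun b hb => ?_⟩
  · apply Additive.toMul.injective
    apply Units.ext
    exact map_natCast (g : GQ) (q : ℕ)
  · rw [h1]; exact one_ne_zero
  · have hb' : ((b.toMul : Qbˣ) : Qb) ∈ B.Fx (Dq q) := by
      rw [B.mem_Fx]
      intro σ hσ
      exact congrArg (fun x : Additive Qbˣ => ((x.toMul : Qbˣ) : Qb)) (hb ⟨σ, hσ⟩)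
    obtain ⟨k, hk⟩ := B.base_val hb' (Units.ne_zero _)
    refine ⟨k, ?_⟩
    rw [h1, zsmul_eq_mul]
    rw [B.wq_q] at hk
    exact hk

theorem la_tower [Fintype Sg] (π : ↥(Dq q) →* Equiv.Perm Sg) (F : Fld (lvlD q) π) :
    ∃ (S₁ S₂ : Type) (_ : Fintype S₁) (_ : Fintype S₂) (π₁ : ↥(Dq q) →* Equiv.Perm S₁)
      (π₂ : ↥(Dq q) →* Equiv.Perm S₂) (u₁ : S₁ → Sg) (u₂ : S₂ → S₁) (σ₁ : Equiv.Perm S₁)
      (σ₂ : Equiv.Perm S₂), Fld (lvlD q) π₁ ∧ Fld (lvlD q) π₂ ∧ CycTorsor p π π₁ u₁ σ₁ ∧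
      CycTorsor (p ^ 2) π π₂ (u₁ ∘ u₂) σ₂ ∧ CycTorsor p π₁ π₂ u₂ (σ₂ ^ p) ∧
      Unr (inD q) π π₁ u₁ ∧ Unr (inD q) π π₂ (u₁ ∘ u₂) := by
  have hp := (Fact.out : p.Prime)
  obtain ⟨s₀⟩ := F.tr.1
  obtain ⟨H₁, H₂, φ, o₁, o₂, c₁, c₂, c₁₂, hI⟩ := B.tower (isOp_St F.sm s₀) hp
  have g₁ := gcyc_of_cyc c₁ (St_le s₀)
  have g₂ := gcyc_of_cyc c₂ (St_le s₀)
  have g₁₂ := gcyc_of_cyc c₁₂ o₁.le
  have hK : (St π s₀).subgroupOf (Dq q) = G.stab π s₀ := St_subgroupOf s₀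
  have hK0 : ∀ g ∈ (St π s₀).subgroupOf (Dq q), π g s₀ = s₀ := fun g hg => by
    rw [hK] at hg; exact hg
  have hb := orbMap_bijective' F.tr s₀ _ hK hK0
  have he := isSetMap_orbMap π s₀ _ hK0
  haveI := finite_coset (isOpen_subgroupOf o₁)
  haveI := finite_coset (isOpen_subgroupOf o₂)
  have e₁ : orbMap π s₀ _ hK0 ∘ Subgroup.quotientMapOfLE g₁.le =
      orbMap π s₀ _ (fun g hg => hK0 g (g₁.le hg)) :=
    funext (orbMap_quotientMapOfLE π s₀ g₁.le hK0)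
  have e₂ : orbMap π s₀ _ hK0 ∘ Subgroup.quotientMapOfLE g₂.le =
      orbMap π s₀ _ (fun g hg => hK0 g (g₁.le hg)) ∘ Subgroup.quotientMapOfLE g₁₂.le := by
    funext x
    rw [Function.comp_apply, Function.comp_apply, orbMap_quotientMapOfLE, orbMap_quotientMapOfLE]
  have es : g₁₂.sig = g₂.sig ^ p := by
    ext x
    induction x using QuotientGroup.induction_on with
    | H g =>
      rw [g₂.sig_pow_mk]
      have := g₁₂.sig_pow_mk 1 g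
      rw [pow_one, pow_one] at this
      rw [this]
      rfl
  have T₁ := CycTorsor.of_bijective g₁.cycTorsor he hb
  have T₂ := CycTorsor.of_bijective g₂.cycTorsor he hb
  have T₁₂ := g₁₂.cycTorsor
  rw [e₁] at T₁
  rw [e₂] at T₂
  rw [es] at T₁₂
  refine ⟨_, _, Fintype.ofFinite _, Fintype.ofFinite _, cosetPerm (H₁.subgroupOf (Dq q)),
    cosetPerm (H₂.subgroupOf (Dq q)), _, _, _, _, fld_cosetPerm (isOpen_subgroupOf o₁),
    fld_cosetPerm (isOpen_subgroupOf o₂), T₁, T₂, T₁₂, ?_, ?_⟩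
  · rw [unr_iff_St T₁.map (isTrans_cosetPerm _) ((1 : ↥(Dq q)) : ↥(Dq q) ⧸ H₁.subgroupOf (Dq q)),
      St_cosetPerm o₁.le, orbMap_mk, map_one, Equiv.Perm.one_apply]
    exact hI.trans c₁₂.le
  · rw [unr_iff_St T₂.map (isTrans_cosetPerm _) ((1 : ↥(Dq q)) : ↥(Dq q) ⧸ H₂.subgroupOf (Dq q)),
      St_cosetPerm o₂.le]
    have : (orbMap π s₀ _ (fun g hg => hK0 g (g₁.le hg)) ∘ Subgroup.quotientMapOfLE g₁₂.le)
        ((1 : ↥(Dq q)) : ↥(Dq q) ⧸ H₂.subgroupOf (Dq q)) = s₀ := by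
      change π 1 s₀ = s₀
      rw [map_one, Equiv.Perm.one_apply]
    rw [this]
    exact hI

theorem la_val_unr [Fintype Sg] [Fintype Sg'] (F : Fld (lvlD q) π) (F' : Fld (lvlD q) π')
    (T : CycTorsor n π π' u σ) (hU : Unr (inD q) π π' u) (c : ↥(Ex (alD q) π')) :
    ∃ b : ↥(Ex (alD q) π), ∀ s', wA q (c.1 s') = wA q (b.1 (u s')) := by
  obtain ⟨s'⟩ := F'.tr.1
  have hI := (unr_iff_St T.map F'.tr s').1 hU
  obtain ⟨b₀, hb₀, hb0, hw⟩ := B.val_unr (isOp_St F.sm (u s')) (isOp_St F'.sm s') (St_mono T.map s')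
    hI (ev_mem_Fx c s') (ev_ne_zero _ _)
  obtain ⟨b, hb⟩ := exists_ev_eq F.tr (u s') hb₀ hb0
  refine ⟨b, fun t' => ?_⟩
  rw [wA_ev, wA_ev, w_ev_const F'.tr c t' s', w_ev_const F.tr b (u t') (u s'), hb, hw]

theorem la_unit_norm [Fintype Sg] [Fintype Sg'] (F : Fld (lvlD q) π) (F' : Fld (lvlD q) π')
    (T : CycTorsor p π π' u σ) (hU : Unr (inD q) π π' u) (b : ↥(Ex (alD q) π))
    (hb : ∀ s, wA q (b.1 s) = 0) : ∃ c : ↥(Ex (alD q) π'), norE (alD q) T.map c = b := by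
  have hp := (Fact.out : p.Prime)
  obtain ⟨s'⟩ := F'.tr.1
  have hI := (unr_iff_St T.map F'.tr s').1 hU
  obtain ⟨t, hc, hN⟩ := exists_cyc T F' s'
  obtain ⟨c₀, hc₀, hc0, hNm⟩ := B.unit_norm (isOp_St F.sm (u s')) (isOp_St F'.sm s') hp hc hI
    (ev_mem_Fx b (u s')) ⟨ev_ne_zero _ _, hb (u s')⟩
  obtain ⟨c, hcc⟩ := exists_ev_eq F'.tr s' hc₀ hc0
  refine ⟨c, Ex_ext F.tr (u s') ?_⟩
  rw [hN, hcc, hNm]

theorem la_unr_of_val [Fintype Sg] [Fintype Sg'] (F : Fld (lvlD q) π) (F' : Fld (lvlD q) π')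
    (T : CycTorsor p π π' u σ)
    (hv : ∀ c : ↥(Ex (alD q) π'), ∃ b : ↥(Ex (alD q) π), ∀ s', wA q (c.1 s') = wA q (b.1 (u s'))) :
    Unr (inD q) π π' u := by
  have hp := (Fact.out : p.Prime)
  obtain ⟨s'⟩ := F'.tr.1
  obtain ⟨t, hc, -⟩ := exists_cyc T F' s'
  refine (unr_iff_St T.map F'.tr s').2 (B.unr_of_val (isOp_St F.sm (u s')) (isOp_St F'.sm s') hp hc
    fun c₀ hc₀ hc0 => ?_)
  obtain ⟨c, hcc⟩ := exists_ev_eq F'.tr s' hc₀ hc0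
  obtain ⟨b, hb⟩ := hv c
  exact ⟨ev b.1 (u s'), ev_mem_Fx b _, ev_ne_zero _ _, by rw [← hcc]; exact hb s'⟩

theorem la_unr_unique {S₁ S₂ : Type} [Fintype Sg] [Fintype S₁] [Fintype S₂]
    {π₁ : ↥(Dq q) →* Equiv.Perm S₁} {π₂ : ↥(Dq q) →* Equiv.Perm S₂} {u₁ : S₁ → Sg} {u₂ : S₂ → Sg}
    {σ₁ : Equiv.Perm S₁} {σ₂ : Equiv.Perm S₂} (F : Fld (lvlD q) π) (F₁ : Fld (lvlD q) π₁)
    (F₂ : Fld (lvlD q) π₂) (T₁ : CycTorsor p π π₁ u₁ σ₁) (T₂ : CycTorsor p π π₂ u₂ σ₂)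
    (U₁ : Unr (inD q) π π₁ u₁) (U₂ : Unr (inD q) π π₂ u₂) :
    ∃ j : S₁ → S₂, IsSetMap π₂ π₁ j ∧ ∀ s, u₂ (j s) = u₁ s := by
  have hp := (Fact.out : p.Prime)
  obtain ⟨s₁⟩ := F₁.tr.1
  obtain ⟨s₂, hs₂⟩ := T₂.surj (u₁ s₁)
  obtain ⟨t₁, hc₁, -⟩ := exists_cyc T₁ F₁ s₁
  obtain ⟨t₂, hc₂, -⟩ := exists_cyc T₂ F₂ s₂
  have I₁ := (unr_iff_St T₁.map F₁.tr s₁).1 U₁
  have I₂ := (unr_iff_St T₂.map F₂.tr s₂).1 U₂
  rw [hs₂] at hc₂ I₂
  have heq : St π₁ s₁ = St π₂ s₂ := B.unr_unique (isOp_St F.sm (u₁ s₁)) (isOp_St F₁.sm s₁)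
    (isOp_St F₂.sm s₂) hp hc₁ hc₂ I₁ I₂
  have hst : G.stab π₁ s₁ = G.stab π₂ s₂ := by rw [← St_subgroupOf, ← St_subgroupOf, heq]
  obtain ⟨j, hj, hj1⟩ := exists_map_of_stab_le F₁.tr s₁ s₂ hst.le
  refine ⟨j, hj, fun s => ?_⟩
  obtain ⟨g, rfl⟩ := F₁.tr.2 s₁ s
  rw [hj g s₁, hj1, T₂.map, hs₂, T₁.map]

theorem zetaP_mem_Fx (hμ : MuIn ((cycloChar p).comp (Dq q).subtype) π) (s : Sg) :
    ((zetaP p : Qbˣ) : Qb) ∈ B.Fx (St π s) := by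
  haveI : Fact (1 < p) := ⟨(Fact.out : p.Prime).one_lt⟩
  rw [B.mem_Fx]
  intro g hg
  obtain ⟨hD, hfix⟩ := mem_St.1 hg
  have h1 := hμ ⟨g, hD⟩ s hfix
  have h2 := (kumData_D p q).act ⟨g, hD⟩
  rw [h1, Units.val_one, ZMod.val_one, pow_one] at h2
  exact congrArg Units.val h2

theorem la_index_le (hp2 : p ≠ 2) [Fintype Sg] [Fintype Sg'] (F : Fld (lvlD q) π)
    (F' : Fld (lvlD q) π') (hμ : MuIn ((cycloChar p).comp (Dq q).subtype) π)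
    (T : CycTorsor p π π' u σ) :
    (norE (alD q) T.map).range.index ≠ 0 ∧ (norE (alD q) T.map).range.index ≤ p := by
  classical
  obtain ⟨s'⟩ := F'.tr.1
  obtain ⟨t, hc, hN⟩ := exists_cyc T F' s'
  have hζ : IsPrimitiveRoot ((zetaP p : Qbˣ) : Qb) p :=
    IsPrimitiveRoot.coe_units_iff.2 (zetaP_spec p)
  obtain ⟨R, hRc, hR, hx⟩ := B.index_le hp2 (isOp_St F.sm (u s')) (isOp_St F'.sm s') hc hζ
    (zetaP_mem_Fx p hμ (u s'))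
  have hch : ∀ r : R, ∃ b : ↥(Ex (alD q) π), ev b.1 (u s') = r.1 := fun r =>
    exists_ev_eq F.tr (u s') (hR r.1 r.2).1 (hR r.1 r.2).2
  choose f hf using hch
  refine index_le_of_reps _ p (R.attach.image f)
    ((Finset.card_image_le).trans (by rw [Finset.card_attach]; exact hRc)) fun x => ?_
  obtain ⟨r, hr, y, hy, hy0, hxy⟩ := hx (ev x.1 (u s')) (ev_mem_Fx x _) (ev_ne_zero _ _)
  obtain ⟨c, hcc⟩ := exists_ev_eq F'.tr s' hy hy0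
  refine ⟨f ⟨r, hr⟩, Finset.mem_image.2 ⟨⟨r, hr⟩, Finset.mem_attach _ _, rfl⟩, c, ?_⟩
  apply Ex_ext F.tr (u s')
  rw [hN, hcc, AddSubgroup.coe_sub, ev_sub, hf, hxy]
  have hr0 : r ≠ 0 := (hR r hr).2
  field_simp

end Fields

/-- **the arithmetic inputs hold for `Dq q`** -/
theorem locArith (p : ℕ) [Fact p.Prime] (hp2 : p ≠ 2) (q : Nat.Primes) :
    LocArith (lvlD q) (alD q) p ((cycloChar p).comp (Dq q).subtype) (inD q) (wA q) where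
  tf := fun n γ hn h => by
    rcases smul_eq_zero.1 h with h | h
    · exact absurd h hn
    · exact h
  inv := wA_gm
  base := la_base
  tower := fun π F => la_tower p π F
  val_unr := fun _ _ _ _ _ F F' T hU c => la_val_unr F F' T hU c
  unit_norm := fun _ _ _ _ F F' T hU b hb => la_unit_norm p F F' T hU b hb
  unr_of_val := fun _ _ _ _ F F' T hv => la_unr_of_val p F F' T hv
  unr_unique := fun _ _ _ _ _ _ _ F F₁ F₂ T₁ T₂ U₁ U₂ => la_unr_unique p F F₁ F₂ T₁ T₂ U₁ U₂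
  index_le := fun _ _ _ _ F F' hμ T => la_index_le p hp2 F F' hμ T

/-- **(B7)** -/
theorem lbc_Q (p : ℕ) [Fact p.Prime] (hp2 : p ≠ 2) : G.LBC p lvlQ (cycloChar p) Dq := by
  intro v Sg _ π hsm htr
  exact lbc (galAct_D v) (kumData_D p v) (locArith p hp2 v) π hsm htr

end Fermat.Agent.S55.B7
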