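import Fermat.Agent.S55.B7.Defs

/-!
# S55 / B7 : formal facts on cyclic torsors  (key S55/B7-SECT; Mathlib + T/Torsor.lean only)

* `CycTorsor.card` : `#Σ' = n * #Σ`  (`T.push_apply` with `f = 1`, or fibres `≃ range n`).
* `CycTorsor.norm_surjective_of_section` : an equivariant section `τ` of `u` ⇒ the norm is onto on
  invariants: `c t := if t = τ (u t) then b (u t) else 0`; `push c s = b s` (only `t = τ s` counts).
* `CycTorsor.exists_section_of_not_trans` : `n = p` prime, `Σ` transitive, `Σ'` not transitive ⇒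
  section.  Proof: `R` = orbit of `t₀`.  `u|R` is onto.  If `t, σ^k t ∈ R`, `0 < k < p`, `σ^k t = g t`,
  then `σ^k R = R` (σ commutes with `D`), hence `σ R = R` (`k` invertible mod `p`, `σ^p = 1`), so `R`
  contains the whole fibres, `R = Σ'`: contradiction.  So `u|R` is bijective, `τ` = its inverse.
* `Unr.baseChange`, `Unr.comp`-type facts are immediate from the definition.
-/

set_option autoImplicit false

namespace Fermat.Agent.S55.B7

open T

variable {D : Type} [Group D] {Sg Sg' : Type} {π : D →* Equiv.Perm Sg} {π' : D →* Equiv.Perm Sg'}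
  {u : Sg' → Sg} {σ : Equiv.Perm Sg'} {n : ℕ}

theorem card_torsor [Fintype Sg] [Fintype Sg'] (T : CycTorsor n π π' u σ) :
    Fintype.card Sg' = n * Fintype.card Sg := by
  classical
  have h1 : ∀ s : Sg, ∑ s' with u s' = s, (1 : ℤ) = n := by
    intro s
    obtain ⟨t, rfl⟩ := T.surj s
    have := T.push_apply (fun _ => (1 : ℤ)) t
    rw [Fermat.Agent.S55.push_apply] at this
    rw [this]
    simp
  have h2 : ((Fintype.card Sg' : ℕ) : ℤ) = ((n * Fintype.card Sg : ℕ) : ℤ) := by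
    have h3 := Finset.sum_fiberwise (Finset.univ : Finset Sg') u (fun _ => (1 : ℤ))
    simp only [h1] at h3
    simp only [Finset.sum_const, Finset.card_univ, nsmul_eq_mul, mul_one] at h3
    push_cast
    rw [← h3, mul_comm]
  exact_mod_cast h2

theorem norm_surjective_of_section [Fintype Sg'] (T : CycTorsor n π π' u σ) (τ : Sg → Sg')
    (hτ : IsSetMap π' π τ) (hu : ∀ s, u (τ s) = s) {A : Type*} [AddCommGroup A]
    (ρ : D →* AddMonoid.End A) (b : ↥(H0 (Fn π ρ))) :
    ∃ c : ↥(H0 (Fn π' ρ)), H0c (isHom_push ρ T.map) c = b := by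
  classical
  refine ⟨⟨fun t => if t = τ (u t) then b.1 (u t) else 0, fun g => ?_⟩, ?_⟩
  · ext t
    have hb := congrFun (b.2 g) (u t)
    rw [Fn_apply] at hb
    rw [Fn_apply, T.map.inv g t]
    have hiff : (π' g)⁻¹ t = τ ((π g)⁻¹ (u t)) ↔ t = τ (u t) := by
      rw [hτ.inv g (u t)]
      exact (π' g)⁻¹.injective.eq_iff
    by_cases ht : t = τ (u t)
    · rw [if_pos (hiff.2 ht), if_pos ht]
      exact hb
    · rw [if_neg (fun h => ht (hiff.1 h)), if_neg ht, map_zero]
  · apply Subtype.ext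
    ext s
    change push A u (fun t => if t = τ (u t) then b.1 (u t) else 0) s = b.1 s
    rw [Fermat.Agent.S55.push_apply, Finset.sum_eq_single (τ s)]
    · rw [hu s, if_pos rfl]
    · intro t ht hne
      rw [Finset.mem_filter] at ht
      rw [ht.2, if_neg hne]
    · intro h
      exact absurd (Finset.mem_filter.2 ⟨Finset.mem_univ (τ s), hu s⟩) h

theorem exists_section_of_not_trans (hn : n.Prime) (T : CycTorsor n π π' u σ) (hπ : IsTrans π)
    (h : ¬ IsTrans π') : ∃ τ : Sg → Sg', IsSetMap π' π τ ∧ ∀ s, u (τ s) = s := by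
  obtain ⟨⟨s₀⟩, htr⟩ := hπ
  obtain ⟨t₀, -⟩ := T.surj s₀
  -- the orbit of `t₀`
  let R : Sg' → Prop := fun x => ∃ g, π' g t₀ = x
  have hRg : ∀ g x, R x → R (π' g x) := by
    rintro g _ ⟨k, rfl⟩
    exact ⟨g * k, by rw [map_mul]; rfl⟩
  have hRtr : ∀ x y, R x → R y → ∃ g, π' g x = y := by
    rintro _ _ ⟨k, rfl⟩ ⟨l, rfl⟩
    refine ⟨l * k⁻¹, ?_⟩
    rw [← Equiv.Perm.mul_apply, ← map_mul, inv_mul_cancel_right]
  have hsurj : ∀ s, ∃ x, R x ∧ u x = s := by
    intro s
    obtain ⟨g, hg⟩ := htr (u t₀) s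
    exact ⟨π' g t₀, ⟨g, rfl⟩, by rw [T.map, hg]⟩
  have hcomm : ∀ (k : ℕ) g x, (σ ^ k) (π' g x) = π' g ((σ ^ k) x) := by
    intro k g x
    induction k with
    | zero => rfl
    | succ k ih =>
      rw [pow_succ', Equiv.Perm.mul_apply, ih, Equiv.Perm.mul_apply]
      exact T.comm g _
  have hinj : ∀ x y, R x → R y → u x = u y → x = y := by
    intro x y hx hy hxy
    by_contra hne
    apply h
    obtain ⟨k, hk⟩ := (T.fib x y).1 hxy
    have hnk : ¬ n ∣ k := by
      rintro ⟨m, rfl⟩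
      apply hne
      rw [← hk, pow_mul, T.pow, one_pow]
      rfl
    -- `σ ^ k` preserves `R`
    have h1 : ∀ z, R z → R ((σ ^ k) z) := by
      intro z hz
      obtain ⟨g, rfl⟩ := hRtr x z hx hz
      rw [hcomm, hk]
      exact hRg g y hy
    have h2 : ∀ (j : ℕ) z, R z → R ((σ ^ (k * j)) z) := by
      intro j
      induction j with
      | zero => intro z hz; simpa using hz
      | succ j ih =>
        intro z hz
        rw [Nat.mul_succ, pow_add, Equiv.Perm.mul_apply]
        exact ih _ (h1 z hz)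
    have hcop : Nat.Coprime k n := ((Nat.Prime.coprime_iff_not_dvd hn).2 hnk).symm
    obtain ⟨j, -, hj⟩ := Nat.exists_mul_mod_eq_one_of_coprime hcop hn.one_lt
    have h3 : ∀ z, R z → R (σ z) := by
      intro z hz
      have := h2 j z hz
      rwa [pow_eq_pow_mod (k * j) T.pow, hj, pow_one] at this
    have h4 : ∀ (m : ℕ) z, R z → R ((σ ^ m) z) := by
      intro m
      induction m with
      | zero => intro z hz; simpa using hz
      | succ m ih =>
        intro z hz
        rw [pow_succ, Equiv.Perm.mul_apply]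
        exact ih _ (h3 z hz)
    have hall : ∀ z, R z := by
      intro z
      obtain ⟨r, hr, hur⟩ := hsurj (u z)
      obtain ⟨m, rfl⟩ := (T.fib r z).1 hur
      exact h4 m r hr
    exact ⟨⟨t₀⟩, fun a b => hRtr a b (hall a) (hall b)⟩
  choose τ hτR hτu using hsurj
  refine ⟨τ, fun g s => ?_, hτu⟩
  apply hinj _ _ (hτR _) (hRg g _ (hτR s))
  rw [hτu, T.map, hτu]

variable {Sg₁ : Type} {π₁ : D →* Equiv.Perm Sg₁} {v : Sg₁ → Sg}

theorem Unr.baseChange {I : Subgroup D} (h : Unr I π π' u) (hv : IsSetMap π π₁ v)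
    (hu : IsSetMap π π' u) : Unr I π₁ (fibPerm hv hu) (fun x : FibProd v u => x.1.1) := by
  intro g hg x hx
  refine Subtype.ext (Prod.ext hx ?_)
  refine h g hg x.1.2 ?_
  have hx' : π₁ g x.1.1 = x.1.1 := hx
  rw [← x.2, ← hv, hx']

/-- a `D`-map `j : Σ₁ → Σ'` over `Σ` gives a section of the base change of `Σ' → Σ` to `Σ₁` -/
theorem exists_section_baseChange (hv : IsSetMap π π₁ v) (hu : IsSetMap π π' u) (j : Sg₁ → Sg')
    (hj : IsSetMap π' π₁ j) (hju : ∀ s, u (j s) = v s) :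
    ∃ τ : Sg₁ → FibProd v u, IsSetMap (fibPerm hv hu) π₁ τ ∧ ∀ s, (τ s).1.1 = s :=
  ⟨fun s => ⟨(s, j s), (hju s).symm⟩, fun g s => Subtype.ext (Prod.ext rfl (hj g s)), fun _ => rfl⟩

/-- the base change along an injective map from a set over which the total space is transitive -/
theorem isTrans_fibPerm_of_injective (hv : IsSetMap π π₁ v) (hu : IsSetMap π π' u)
    (hinj : Function.Injective v) (hsurj : Function.Surjective v) (h' : IsTrans π') :
    IsTrans (fibPerm hv hu) := by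
  obtain ⟨⟨t⟩, htr⟩ := h'
  obtain ⟨s, hs⟩ := hsurj (u t)
  refine ⟨⟨⟨(s, t), hs⟩⟩, fun x y => ?_⟩
  obtain ⟨g, hg⟩ := htr x.1.2 y.1.2
  refine ⟨g, Subtype.ext (Prod.ext ?_ hg)⟩
  apply hinj
  change v (π₁ g x.1.1) = v y.1.1
  rw [hv, x.2, ← hu, hg, y.2]

/-- a `D`-map between transitive sets is onto -/
theorem surjective_of_isTrans (hu : IsSetMap π π' u) (hπ : IsTrans π) (hπ' : IsTrans π') :
    Function.Surjective u := by
  intro s
  obtain ⟨⟨t₀⟩, -⟩ := hπ'
  obtain ⟨g, hg⟩ := hπ.2 (u t₀) s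
  exact ⟨π' g t₀, by rw [hu, hg]⟩

end Fermat.Agent.S55.B7
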