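import Fermat.Agent.S55.B7.StepA

/-!
# S55 / B7, step (b) : `cores β₀(E') ≠ 0` for a cyclic extension `E'/E` of degree `p`, `μ_p ⊂ E`
-/

set_option autoImplicit false

namespace Fermat.Agent.S55.B7

open T

variable {D : Type} [Group D] {𝓛 : Lvl D} {Ω : Type} [Field Ω] {α : D →* RingAut Ω}
  {p : ℕ} [Fact p.Prime] {χ : D →* (ZMod p)ˣ} {I : Subgroup D} {Γ : Type} [AddCommGroup Γ]
  {w : Additive Ωˣ →+ Γ}
variable {Sg Sg' : Type} {π : D →* Equiv.Perm Sg} {π' : D →* Equiv.Perm Sg'}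
  {u : Sg' → Sg} {σ : Equiv.Perm Sg'}

theorem MuIn.of_map {hu : IsSetMap π π' u} (hμ : MuIn χ π) : MuIn χ π' :=
  fun g s h => hμ g (u s) (by rw [← hu, h])

/-- there is a multiple of `β'` with non zero corestriction -/
theorem exists_corB_ne_zero (hα : GalAct 𝓛 α) (LA : LocArith 𝓛 α p χ I w) [Fintype Sg]
    [Fintype Sg'] (F : Fld 𝓛 π) (F' : Fld 𝓛 π') (hμ : MuIn χ π) (T : CycTorsor p π π' u σ)
    {β' : Br 𝓛 α π'} (hβ' : IsBeta 𝓛 α p π' β') :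
    ∃ (y : Br 𝓛 α π') (k : ℕ), y = k • β' ∧ corB 𝓛 α T.map y ≠ 0 := by
  have hp : p.Prime := Fact.out
  have hμ' : MuIn χ π' := hμ.of_map (hu := T.map)
  obtain ⟨S₁, S₂, _, _, π₁, π₂, u₁, u₂, σ₁, σ₂, F₁, F₂, T₁, T₂, T₂₁, hU₁, hU₂⟩ := LA.tower π F
  obtain ⟨ϖ, hϖ⟩ := LA.exists_unif F
  by_cases hval : ∀ c : ↥(Ex α π'), ∃ b : ↥(Ex α π), ∀ s', w (c.1 s') = w (b.1 (u s'))
  · -- `E' = E_p`
    have hU' := LA.unr_of_val π π' u σ F F' T hval
    obtain ⟨j, hj, hju⟩ := LA.unr_unique π π' π₁ u u₁ σ σ₁ F F' F₁ T T₁ hU' hU₁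
    have hsurj : Function.Surjective j := surjective_of_isTrans hj F₁.tr F'.tr
    have hinj : Function.Injective j :=
      ((Fintype.bijective_iff_surjective_and_card j).2
        ⟨hsurj, by rw [card_torsor T, card_torsor T₁]⟩).1
    set y := th hα (T₂.baseChange T.map) (smoothSet_fibPerm T.map T₂.map F'.sm F₂.sm)
      (resE α T.map ϖ) with hy
    have hy0 : resB 𝓛 α (T₂.baseChange T.map).map y = 0 :=
      (exists_th_eq_iff hα (T₂.baseChange T.map) _ y).1 ⟨_, rfl⟩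
    have FR : Fld 𝓛 (fibPerm hj T₂₁.map) :=
      ⟨smoothSet_fibPerm hj T₂₁.map F'.sm F₂.sm,
        isTrans_fibPerm_of_injective hj T₂₁.map hinj hsurj F₂.tr⟩
    let κ : FibProd j u₂ → FibProd u (u₁ ∘ u₂) := fun x => ⟨(x.1.1, x.1.2), by
      change u x.1.1 = u₁ (u₂ x.1.2)
      rw [← hju, x.2]⟩
    have hκ : IsSetMap (fibPerm T.map T₂.map) (fibPerm hj T₂₁.map) κ := fun g x => rfl
    have hyR : resB 𝓛 α (T₂₁.baseChange hj).map y = 0 := by
      have := H2c_H2c 𝓛 (isHom_pull (gm α) hκ) (isHom_pull (gm α) (T₂.baseChange T.map).map)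
        (isHom_pull (gm α) (T₂₁.baseChange hj).map) (fun a => rfl) y
      rw [resB, ← this]
      rw [resB] at hy0
      rw [hy0, map_zero]
    obtain ⟨k, hk⟩ := eq_nsmul_beta hα LA F' FR hμ' hβ' (T₂₁.baseChange hj) y hyR
    refine ⟨y, k, hk, ?_⟩
    rw [hy, corB_th hα T₂ F₂.sm T.map F'.sm, norE_resE T, Ne, th_eq_zero_iff]
    refine LA.not_norm F F₂ T₂ hU₂ hϖ (p • ϖ) (p : ℤ) (fun s => ?_) ?_
    · have : ((p • ϖ : ↥(Ex α π)) : Sg → Additive Ωˣ) s = p • ϖ.1 s := rfl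
      rw [this, map_nsmul, natCast_zsmul]
    · intro h
      have h1 : p ^ 2 ∣ p := by exact_mod_cast h
      have h2 := Nat.le_of_dvd hp.pos h1
      have h3 := hp.two_le
      nlinarith
  · -- `E'/E` ramified
    obtain ⟨c', hc'⟩ := LA.exists_ram F F' T hϖ hval
    set y := th hα (T₁.baseChange T.map) (smoothSet_fibPerm T.map T₁.map F'.sm F₁.sm) c' with hy
    have hk : ∃ k : ℕ, y = k • β' := by
      by_cases htr : IsTrans (fibPerm T.map T₁.map)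
      · have FP : Fld 𝓛 (fibPerm T.map T₁.map) :=
          ⟨smoothSet_fibPerm T.map T₁.map F'.sm F₁.sm, htr⟩
        exact eq_nsmul_beta hα LA F' FP hμ' hβ' (T₁.baseChange T.map) y
          ((exists_th_eq_iff hα (T₁.baseChange T.map) _ y).1 ⟨_, rfl⟩)
      · obtain ⟨τ, hτ, hτu⟩ := exists_section_of_not_trans hp (T₁.baseChange T.map) F'.tr htr
        refine ⟨0, ?_⟩
        rw [zero_nsmul, hy, th_eq_zero_iff]
        exact norm_surjective_of_section (T₁.baseChange T.map) τ hτ hτu (gm α) _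
    obtain ⟨k, hk⟩ := hk
    refine ⟨y, k, hk, ?_⟩
    rw [hy, corB_th hα T₁ F₁.sm T.map F'.sm, Ne, th_eq_zero_iff]
    refine LA.not_norm F F₁ T₁ hU₁ hϖ (norE α T.map c') 1 (fun s => ?_) ?_
    · obtain ⟨s', rfl⟩ := T.surj s
      rw [LA.w_norE T F'.tr c' s', hc', one_zsmul]
    · intro h
      have := Int.isUnit_iff.1 (isUnit_of_dvd_one h)
      have h2 := hp.two_le
      omega

/-- step (b) -/
theorem corB_beta_ne_zero (hα : GalAct 𝓛 α) (LA : LocArith 𝓛 α p χ I w) [Fintype Sg]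
    [Fintype Sg'] (F : Fld 𝓛 π) (F' : Fld 𝓛 π') (hμ : MuIn χ π) (T : CycTorsor p π π' u σ)
    {β' : Br 𝓛 α π'} (hβ' : IsBeta 𝓛 α p π' β') : corB 𝓛 α T.map β' ≠ 0 := by
  obtain ⟨y, k, rfl, hy⟩ := exists_corB_ne_zero hα LA F F' hμ T hβ'
  intro h
  rw [map_nsmul, h, smul_zero] at hy
  exact hy rfl

end Fermat.Agent.S55.B7
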