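import Fermat.Agent.S55.B7.StepB
import Fermat.Agent.S55.B7.CosetB
import Fermat.Agent.S55.B7.Efface

/-!
# S55 / B7, steps (c), (d), (e)

(c) `split_tower` : `μ_p ⊂ E = D/P`, `x ∈ Br(E)[p]` split by `D/W`, `[P : W] = p^k` ⇒ `x ∈ ⟨β₀(E)⟩`.
(d) `isGen_beta`  : `Br(E)[p] = ⟨β₀(E)⟩` for every `E`.
(e) `corB_injOn`  : `cores : Br(E')[p] → Br(E)[p]` is injective for every `E' → E`.
-/

set_option autoImplicit false

namespace Fermat.Agent.S55.B7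

open T

variable {D : Type} [Group D] {𝓛 : Lvl D} {Ω : Type} [Field Ω] {α : D →* RingAut Ω}
  {p : ℕ} [Fact p.Prime] {χ : D →* (ZMod p)ˣ} {I : Subgroup D} {Γ : Type} [AddCommGroup Γ]
  {w : Additive Ωˣ →+ Γ}

/-- step (c) -/
theorem split_tower (hα : GalAct 𝓛 α) (LA : LocArith 𝓛 α p χ I w) {W : Subgroup D}
    (hW : W ∈ 𝓛.sets) (hWn : W.Normal) (k : ℕ) :
    ∀ (P : Subgroup D) (hWP : W ≤ P), W.relIndex P = p ^ k → (∀ g ∈ P, χ g = 1) →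
    ∀ β : Br 𝓛 α (cosetPerm P), IsBeta 𝓛 α p (cosetPerm P) β → ∀ x : Br 𝓛 α (cosetPerm P),
      p • x = 0 → resB 𝓛 α (isSetMap_quotientMapOfLE hWP) x = 0 → ∃ m : ℕ, x = m • β := by
  have hp : p.Prime := Fact.out
  induction k with
  | zero =>
    intro P hWP hk _ β _ x _ hx
    have hPW : P ≤ W := Subgroup.relIndex_eq_one.1 (by simpa using hk)
    obtain rfl : W = P := le_antisymm hWP hPW
    rw [resB_id _ (fun s => quotientMapOfLE_self _ s)] at hx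
    exact ⟨0, by rw [hx, zero_nsmul]⟩
  | succ k ih =>
    intro P hWP hk hχ β hβ x hpx hx
    obtain ⟨P₁, hWP₁, hP₁P, hconj, hidx, hk₁⟩ := exists_index_p hWn (𝓛.fin W hW) hWP hk
    obtain ⟨σ, T⟩ := exists_cycTorsor_coset hp hP₁P hconj hidx
    have oP : 𝓛.IsOpen P := ⟨W, hW, hWP⟩
    have oP₁ : 𝓛.IsOpen P₁ := ⟨W, hW, hWP₁⟩
    haveI := finite_coset oP
    haveI := finite_coset oP₁
    letI : Fintype (D ⧸ P) := Fintype.ofFinite _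
    letI : Fintype (D ⧸ P₁) := Fintype.ofFinite _
    have F := fld_cosetPerm oP
    have F₁ := fld_cosetPerm oP₁
    have hμ : MuIn χ (cosetPerm P) := muIn_cosetPerm hχ
    obtain ⟨β₁, hβ₁⟩ := exists_beta hα LA F₁
    obtain ⟨m, hm⟩ := ih P₁ hWP₁ hk₁ (fun g hg => hχ g (hP₁P hg)) β₁ hβ₁ (resB 𝓛 α T.map x)
      (by rw [← map_nsmul, hpx, map_zero])
      (by rw [resB_resB T.map (isSetMap_quotientMapOfLE hWP₁) (isSetMap_quotientMapOfLE hWP)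
            (fun s => quotientMapOfLE_comp hWP₁ hP₁P s), hx])
    have h1 : m • corB 𝓛 α T.map β₁ = 0 := by
      rw [← map_nsmul, ← hm, corB_resB_torsor T, hpx]
    have h2 : p ∣ m := (nsmul_eq_zero_iff (corB_beta_ne_zero hα LA F F₁ hμ T hβ₁)
      (by rw [← map_nsmul, hβ₁.2.1, map_zero]) m).1 h1
    have h3 : resB 𝓛 α T.map x = 0 := by
      rw [hm]; exact (nsmul_eq_zero_iff hβ₁.1 hβ₁.2.1 m).2 h2
    exact eq_nsmul_beta hα LA F F₁ hμ hβ T x h3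

variable {Sg Sg' : Type} {π : D →* Equiv.Perm Sg} {π' : D →* Equiv.Perm Sg'} {u : Sg' → Sg}

/-- step (d) -/
theorem isGen_beta (hα : GalAct 𝓛 α) (LA : LocArith 𝓛 α p χ I w)
    (hχ : ∃ V ∈ 𝓛.sets, ∀ g ∈ V, χ g = 1) [Fintype Sg] (F : Fld 𝓛 π) {β : Br 𝓛 α π}
    (hβ : IsBeta 𝓛 α p π β) : IsGen p β := by
  refine ⟨hβ.1, hβ.2.1, fun x hpx => ?_⟩
  obtain ⟨s₀⟩ := F.tr.1
  obtain ⟨V, hV, hχV⟩ := hχ
  obtain ⟨U₁, hU₁, -, hU₁V, hU₁s, hx₁⟩ := efface hα.smooth_gm F.sm s₀ x V hV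
  obtain ⟨W, hW, hWn, hWU₁, hWs, hβW⟩ := efface hα.smooth_gm F.sm s₀ β U₁ hU₁
  have hxW := efface_mono s₀ x hWU₁ hU₁s hx₁
  obtain ⟨P, hWP, hPs, ⟨k, hk⟩, hpm⟩ := exists_sylow (p := p) hWn (𝓛.fin W hW)
    (show W ≤ G.stab π s₀ from fun h hh => hWs h hh)
  have hP : ∀ h ∈ P, π h s₀ = s₀ := fun h hh => hPs hh
  have hχP : ∀ g ∈ P, χ g = 1 :=
    chi_eq_one_of_pgroup χ hWn hWP hk (fun g hg => hχV g (hU₁V (hWU₁ hg)))
  have oP : 𝓛.IsOpen P := ⟨W, hW, hWP⟩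
  haveI := finite_coset oP
  letI : Fintype (D ⧸ P) := Fintype.ofFinite _
  have F₁ := fld_cosetPerm oP
  obtain ⟨β₁, hβ₁⟩ := exists_beta hα LA F₁
  have hv := isSetMap_orbMap π s₀ P hP
  have key : ∀ y : Br 𝓛 α π, p • y = 0 →
      resB 𝓛 α (isSetMap_orbMap π s₀ W hWs) y = 0 → ∃ a : ℕ, resB 𝓛 α hv y = a • β₁ := by
    intro y hpy hy
    refine split_tower hα LA hW hWn k P hWP hk hχP β₁ hβ₁ _ (by rw [← map_nsmul, hpy, map_zero]) ?_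
    rw [resB_resB hv (isSetMap_quotientMapOfLE hWP) (isSetMap_orbMap π s₀ W hWs)
      (fun s => orbMap_quotientMapOfLE π s₀ hWP hP s), hy]
  obtain ⟨a, ha⟩ := key x hpx hxW
  obtain ⟨b, hb⟩ := key β hβ.2.1 hβW
  set m := P.relIndex (G.stab π s₀) with hm
  set γ := corB 𝓛 α hv β₁ with hγ
  have hpγ : p • γ = 0 := by rw [hγ, ← map_nsmul, hβ₁.2.1, map_zero]
  have hmx : m • x = a • γ := by
    rw [hm, ← corB_resB_orbMap F.tr s₀ P hP x, ha, map_nsmul]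
  have hmβ : m • β = b • γ := by
    rw [hm, ← corB_resB_orbMap F.tr s₀ P hP β, hb, map_nsmul]
  have hmβ0 : b • γ ≠ 0 := by
    rw [← hmβ]
    exact fun h => hpm ((nsmul_eq_zero_iff hβ.1 hβ.2.1 m).1 h)
  obtain ⟨m₁, hm₁⟩ := exists_nsmul_eq (X := Br 𝓛 α π) hpγ hmβ0
  obtain ⟨m', hm'⟩ := exists_nsmul_inv (X := Br 𝓛 α π) hpm
  refine ⟨m' * (a * (m₁ * m)), ?_⟩
  rw [mul_nsmul', mul_nsmul', mul_nsmul', hmβ, hm₁, ← hmx, hm' x hpx]

/-- corestriction is injective on `p`-torsion along a tower of `ℤ/p`-extensions -/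
theorem cor_tower_injOn (hα : GalAct 𝓛 α) (LA : LocArith 𝓛 α p χ I w)
    (hχ : ∃ V ∈ 𝓛.sets, ∀ g ∈ V, χ g = 1) {W : Subgroup D} (hW : W ∈ 𝓛.sets) (hWn : W.Normal)
    [Fintype (D ⧸ W)] (k : ℕ) :
    ∀ (P : Subgroup D) (hWP : W ≤ P), W.relIndex P = p ^ k → (∀ g ∈ P, χ g = 1) →
    ∀ y : Br 𝓛 α (cosetPerm W), p • y = 0 →
      corB 𝓛 α (isSetMap_quotientMapOfLE hWP) y = 0 → y = 0 := by
  have hp : p.Prime := Fact.out
  induction k with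
  | zero =>
    intro P hWP hk _ y _ hy
    have hPW : P ≤ W := Subgroup.relIndex_eq_one.1 (by simpa using hk)
    obtain rfl : W = P := le_antisymm hWP hPW
    rwa [corB_id _ (fun s => quotientMapOfLE_self _ s)] at hy
  | succ k ih =>
    intro P hWP hk hχP y hpy hy
    obtain ⟨P₁, hWP₁, hP₁P, hconj, hidx, hk₁⟩ := exists_index_p hWn (𝓛.fin W hW) hWP hk
    obtain ⟨σ, T⟩ := exists_cycTorsor_coset hp hP₁P hconj hidx
    have oP : 𝓛.IsOpen P := ⟨W, hW, hWP⟩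
    have oP₁ : 𝓛.IsOpen P₁ := ⟨W, hW, hWP₁⟩
    haveI := finite_coset oP
    haveI := finite_coset oP₁
    letI : Fintype (D ⧸ P) := Fintype.ofFinite _
    letI : Fintype (D ⧸ P₁) := Fintype.ofFinite _
    have F := fld_cosetPerm oP
    have F₁ := fld_cosetPerm oP₁
    have hμ : MuIn χ (cosetPerm P) := muIn_cosetPerm hχP
    obtain ⟨β₁, hβ₁⟩ := exists_beta hα LA F₁
    have hG₁ := isGen_beta hα LA hχ F₁ hβ₁
    refine ih P₁ hWP₁ hk₁ (fun g hg => hχP g (hP₁P hg)) y hpy ?_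
    refine hG₁.injOn (Y := Br 𝓛 α (cosetPerm P)) (corB 𝓛 α T.map)
      (corB_beta_ne_zero hα LA F F₁ hμ T hβ₁) _
      (by rw [← map_nsmul, hpy, map_zero]) ?_
    rw [corB_corB T.map (isSetMap_quotientMapOfLE hWP₁) (isSetMap_quotientMapOfLE hWP)
      (fun s => quotientMapOfLE_comp hWP₁ hP₁P s), hy]

/-- step (e) -/
theorem corB_injOn (hα : GalAct 𝓛 α) (LA : LocArith 𝓛 α p χ I w)
    (hχ : ∃ V ∈ 𝓛.sets, ∀ g ∈ V, χ g = 1) [Fintype Sg] [Fintype Sg'] (F : Fld 𝓛 π)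
    (F' : Fld 𝓛 π') (hu : IsSetMap π π' u) (y : Br 𝓛 α π') (hpy : p • y = 0)
    (hy : corB 𝓛 α hu y = 0) : y = 0 := by
  obtain ⟨s₀'⟩ := F'.tr.1
  obtain ⟨V, hV, hχV⟩ := id hχ
  obtain ⟨U', hU', -, hU's⟩ := exists_normal_of_smoothSet F'.sm
  obtain ⟨W₀, hW₀, hW₀le⟩ := 𝓛.inter U' hU' V hV
  obtain ⟨W, hW, hWW₀, hWn⟩ := 𝓛.normal W₀ hW₀
  have hWs' : ∀ h ∈ W, π' h s₀' = s₀' := fun h hh => hU's h (hW₀le (hWW₀ hh)).1 s₀'
  have hWs : ∀ h ∈ W, π h (u s₀') = u s₀' := fun h hh => by rw [← hu, hWs' h hh]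
  obtain ⟨P, hWP, hPs, ⟨k, hk⟩, hpm⟩ := exists_sylow (p := p) hWn (𝓛.fin W hW)
    (show W ≤ G.stab π (u s₀') from fun h hh => hWs h hh)
  have hP : ∀ h ∈ P, π h (u s₀') = u s₀' := fun h hh => hPs hh
  have hχP : ∀ g ∈ P, χ g = 1 :=
    chi_eq_one_of_pgroup χ hWn hWP hk (fun g hg => hχV g (hW₀le (hWW₀ hg)).2)
  have oP : 𝓛.IsOpen P := ⟨W, hW, hWP⟩
  have oW : 𝓛.IsOpen W := ⟨W, hW, le_rfl⟩
  haveI := finite_coset oP
  haveI := finite_coset oW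
  letI : Fintype (D ⧸ P) := Fintype.ofFinite _
  letI : Fintype (D ⧸ W) := Fintype.ofFinite _
  have FP := fld_cosetPerm oP
  have FW := fld_cosetPerm oW
  obtain ⟨βW, hβW⟩ := exists_beta hα LA FW
  obtain ⟨βP, hβP⟩ := exists_beta hα LA FP
  obtain ⟨β, hβ⟩ := exists_beta hα LA F
  obtain ⟨β', hβ'⟩ := exists_beta hα LA F'
  have GP := isGen_beta hα LA hχ FP hβP
  have G' := isGen_beta hα LA hχ F' hβ'
  have hv := isSetMap_orbMap π (u s₀') P hP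
  -- `cores : Br(D/P) → Br(Σ)` does not kill `βP`
  have h1 : corB 𝓛 α hv βP ≠ 0 := by
    intro h0
    obtain ⟨b, hb⟩ := GP.gen (resB 𝓛 α hv β) (by rw [← map_nsmul, hβ.2.1, map_zero])
    have h2 := corB_resB_orbMap F.tr (u s₀') P hP β
    rw [hb, map_nsmul, h0, smul_zero] at h2
    exact hpm ((nsmul_eq_zero_iff hβ.1 hβ.2.1 _).1 h2.symm)
  -- `cores : Br(D/W) → Br(D/P)` does not kill `βW`
  have h2 : corB 𝓛 α (isSetMap_quotientMapOfLE hWP) βW ≠ 0 := fun h0 =>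
    hβW.1 (cor_tower_injOn hα LA hχ hW hWn k P hWP hk hχP βW hβW.2.1 h0)
  have h3 : corB 𝓛 α hv (corB 𝓛 α (isSetMap_quotientMapOfLE hWP) βW) ≠ 0 := fun h0 =>
    h2 (GP.injOn (Y := Br 𝓛 α π) (corB 𝓛 α hv) h1 _ (by rw [← map_nsmul, hβW.2.1, map_zero]) h0)
  rw [corB_corB hv (isSetMap_quotientMapOfLE hWP) (isSetMap_orbMap π (u s₀') W hWs)
    (fun s => orbMap_quotientMapOfLE π (u s₀') hWP hP s),
    ← corB_corB hu (isSetMap_orbMap π' s₀' W hWs') (isSetMap_orbMap π (u s₀') W hWs)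
    (fun s => by
      induction s using QuotientGroup.induction_on with
      | H g => exact hu g s₀')] at h3
  have h4 : corB 𝓛 α hu β' ≠ 0 := by
    intro h0
    obtain ⟨c, hc⟩ := G'.gen (corB 𝓛 α (isSetMap_orbMap π' s₀' W hWs') βW)
      (by rw [← map_nsmul, hβW.2.1, map_zero])
    rw [hc, map_nsmul, h0, smul_zero] at h3
    exact h3 rfl
  exact G'.injOn (Y := Br 𝓛 α π) (corB 𝓛 α hu) h4 y hpy hy

end Fermat.Agent.S55.B7
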